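import Fermat.Agent.MU.S17.W.Final
import Fermat.Agent.MU.Lib.FrobDensity.Final

section MergeWrap_S14_SI_InertPrime -- from S14/SI/InertPrime.lean

set_option autoImplicit false

/-!
# `InertPrimeExists` from the Frobenius density theorem (cyclic case)
-/

namespace Fermat.Agent.S14SI

open NumberField

/-- **(NS)**: a Galois extension of number fields of prime degree has inert primes of degree one
outside any finite set of rational primes. -/
theorem inertPrimeExists : InertPrimeExists := by
  intro p K L _ _ _ _ _ _ hp hfin B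
  have hp' : Fact p.Prime := ⟨hp⟩
  have hcard : Nat.card Gal(L/K) = p := by
    rw [IsGalois.card_aut_eq_finrank, hfin]
  have hcyc : IsCyclic Gal(L/K) := isCyclic_of_prime_card hcard
  have hB : {q : Nat.Primes | (q : ℕ) ∈ B}.Finite := by
    refine Set.Finite.of_finite_image (f := fun q : Nat.Primes => (q : ℕ))
      (B.finite_toSet.subset ?_) (fun q _ r _ hqr => Subtype.ext hqr)
    rintro _ ⟨q, hq, rfl⟩
    exact hq
  obtain ⟨q, 𝔮, hqB, hN, hf⟩ := Fermat.Agent.FrobDensity.exists_inert K L _ hB
  exact ⟨q, 𝔮, q.2, hqB, hN, hf.trans hfin⟩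

end Fermat.Agent.S14SI
end MergeWrap_S14_SI_InertPrime
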