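import Fermat.Agent.MU.S14.SI.Basic

section MergeWrap_S14_SI_PowMod -- from S14/SI/PowMod.lean

/-!
# S14 / H2 Route I: `IsPowMod` is a subgroup condition
-/

set_option autoImplicit false

open NumberField IsDedekindDomain

namespace Fermat.Agent.S14SI

variable {F : Type*} [Field F] [NumberField F]

lemma isPowMod_one (v : HeightOneSpectrum (𝓞 F)) (p : ℕ) : IsPowMod F v p 1 := by
  refine ⟨1, ?_, by simp⟩
  intro h
  exact v.isPrime.ne_top ((Ideal.eq_top_iff_one _).mpr h)

lemma IsPowMod.mul {v : HeightOneSpectrum (𝓞 F)} {p : ℕ} {a b : F}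
    (ha : IsPowMod F v p a) (hb : IsPowMod F v p b) : IsPowMod F v p (a * b) := by
  have ha1 := ha.valuation_eq_one
  obtain ⟨y, hy, h1⟩ := ha
  obtain ⟨z, hz, h2⟩ := hb
  refine ⟨y * z, fun h => (v.isPrime.mem_or_mem h).elim hy hz, ?_⟩
  have e : a * b - ((y * z : 𝓞 F) : F) ^ p
      = a * (b - (z : F) ^ p) + (z : F) ^ p * (a - (y : F) ^ p) := by
    push_cast; ring
  rw [e]
  have k1 : v.valuation F (a * (b - (z : F) ^ p)) < 1 := by
    rw [Valuation.map_mul, ha1, one_mul]; exact h2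
  have k2 : v.valuation F ((z : F) ^ p * (a - (y : F) ^ p)) < 1 := by
    rw [Valuation.map_mul]
    have hz1 : v.valuation F ((z : F) ^ p) ≤ 1 := by
      rw [Valuation.map_pow]
      exact pow_le_one' (v.valuation_le_one z) p
    calc v.valuation F ((z : F) ^ p) * v.valuation F (a - (y : F) ^ p)
        ≤ 1 * v.valuation F (a - (y : F) ^ p) := mul_le_mul' hz1 le_rfl
      _ = v.valuation F (a - (y : F) ^ p) := one_mul _
      _ < 1 := h1
  exact Valuation.map_add_lt _ k1 k2

lemma IsPowMod.inv {v : HeightOneSpectrum (𝓞 F)} {p : ℕ} {a : F}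
    (ha : IsPowMod F v p a) : IsPowMod F v p a⁻¹ := by
  have ha1 := ha.valuation_eq_one
  obtain ⟨y, hy, h1⟩ := ha
  -- an inverse of `y` modulo `v`
  have := v.isMaximal
  obtain ⟨z, hz⟩ := Ideal.Quotient.exists_inv
    (show (Ideal.Quotient.mk v.asIdeal y) ≠ 0 from fun h => hy (Ideal.Quotient.eq_zero_iff_mem.mp h))
  obtain ⟨z, rfl⟩ := Ideal.Quotient.mk_surjective z
  have hyz : y * z - 1 ∈ v.asIdeal := by
    rw [← Ideal.Quotient.eq_zero_iff_mem, map_sub, map_mul, hz, map_one, sub_self]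
  have hzv : z ∉ v.asIdeal := by
    intro h
    have h1 : (1 : 𝓞 F) ∈ v.asIdeal := by
      have := v.asIdeal.sub_mem (v.asIdeal.mul_mem_left y h) hyz
      simpa using this
    exact v.isPrime.ne_top ((Ideal.eq_top_iff_one _).mpr h1)
  refine ⟨z, hzv, ?_⟩
  have ha0 : a ≠ 0 := by
    intro h; rw [h] at ha1; simp at ha1
  -- `(y z)^p ≡ 1`
  have hyzp : v.valuation F (((y * z : 𝓞 F) : F) ^ p - 1) < 1 := by
    have hdvd : (y * z - 1) ∣ (y * z) ^ p - 1 := by
      simpa using sub_dvd_pow_sub_pow (y * z) 1 p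
    have hmem : (y * z) ^ p - 1 ∈ v.asIdeal := v.asIdeal.mem_of_dvd hdvd hyz
    have := (v.valuation_lt_one_iff_mem (K := F) _).mpr hmem
    simpa using this
  have e : a⁻¹ - (z : F) ^ p
      = - a⁻¹ * ((((y * z : 𝓞 F) : F) ^ p - 1) + (z : F) ^ p * (a - (y : F) ^ p)) := by
    push_cast
    field_simp
    ring
  rw [e, Valuation.map_mul, Valuation.map_neg, map_inv₀, ha1, inv_one, one_mul]
  have k2 : v.valuation F ((z : F) ^ p * (a - (y : F) ^ p)) < 1 := by
    rw [Valuation.map_mul]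
    have hz1 : v.valuation F ((z : F) ^ p) ≤ 1 := by
      rw [Valuation.map_pow]
      exact pow_le_one' (v.valuation_le_one z) p
    calc v.valuation F ((z : F) ^ p) * v.valuation F (a - (y : F) ^ p)
        ≤ 1 * v.valuation F (a - (y : F) ^ p) := mul_le_mul' hz1 le_rfl
      _ = v.valuation F (a - (y : F) ^ p) := one_mul _
      _ < 1 := h1
  exact Valuation.map_add_lt _ hyzp k2

lemma IsPowMod.pow {v : HeightOneSpectrum (𝓞 F)} {p : ℕ} {a : F}
    (ha : IsPowMod F v p a) (n : ℕ) : IsPowMod F v p (a ^ n) := by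
  induction n with
  | zero => simpa using isPowMod_one v p
  | succ n ih => rw [pow_succ]; exact ih.mul ha

/-- A unit at `v` is a quotient of two elements of `𝓞 F` outside `v`. -/
lemma exists_div_of_valuation_eq_one (v : HeightOneSpectrum (𝓞 F)) {a : F}
    (ha : v.valuation F a = 1) :
    ∃ n d : 𝓞 F, n ∉ v.asIdeal ∧ d ∉ v.asIdeal ∧ a * (d : F) = (n : F) := by
  obtain ⟨n, d, h | h⟩ := v.exists_primeCompl_mul_eq_or_mul_eq (K := F) a
  · replace h : a * ((d : 𝓞 F) : F) = (n : F) := h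
    refine ⟨n, d, ?_, d.2, h⟩
    intro hn
    have h1 : v.valuation F (n : F) < 1 := (v.valuation_lt_one_iff_mem (K := F) _).mpr hn
    rw [← h, Valuation.map_mul, ha, one_mul] at h1
    exact d.2 ((v.valuation_lt_one_iff_mem (K := F) _).mp h1)
  · replace h : a * (n : F) = ((d : 𝓞 F) : F) := h
    have hn : n ∉ v.asIdeal := by
      intro hn
      have h1 : v.valuation F (n : F) < 1 := (v.valuation_lt_one_iff_mem (K := F) _).mpr hn
      have h2 : v.valuation F ((d : 𝓞 F) : F) < 1 := by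
        rw [← h, Valuation.map_mul, ha, one_mul]; exact h1
      exact d.2 ((v.valuation_lt_one_iff_mem (K := F) _).mp h2)
    have hn0 : (n : F) ≠ 0 := by
      intro h0
      apply hn
      have : n = 0 := by exact_mod_cast h0
      rw [this]; exact v.asIdeal.zero_mem
    have ha0 : a ≠ 0 := by
      intro h0; rw [h0] at ha; simp at ha
    -- `a n = d`, and we want `a d' = n'`: take `n' = d * ?`... use `a * n = d` twice
    -- `a = d / n`; write `a * n = d`, so numerator `d`, denominator `n`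
    exact ⟨d, n, d.2, hn, h⟩

/-- The `p`-th power of a unit at `v` is a `p`-th power residue. -/
lemma isPowMod_pow_of_valuation_eq_one {v : HeightOneSpectrum (𝓞 F)} (p : ℕ) {a : F}
    (ha : v.valuation F a = 1) : IsPowMod F v p (a ^ p) := by
  obtain ⟨n, d, hn, hd, hnd⟩ := exists_div_of_valuation_eq_one v ha
  have hd1 : IsPowMod F v p ((d : F) ^ p) := ⟨d, hd, by simp⟩
  have hn1 : IsPowMod F v p ((n : F) ^ p) := ⟨n, hn, by simp⟩
  have hd0 : (d : F) ≠ 0 := by
    intro h
    apply hd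
    have : d = 0 := by exact_mod_cast h
    rw [this]; exact v.asIdeal.zero_mem
  have : a ^ p = (n : F) ^ p * ((d : F) ^ p)⁻¹ := by
    rw [← hnd, mul_pow, mul_assoc, mul_inv_cancel₀ (pow_ne_zero _ hd0), mul_one]
  rw [this]
  exact hn1.mul hd1.inv

end Fermat.Agent.S14SI
end MergeWrap_S14_SI_PowMod
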