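import Fermat.Agent.MU.S17.W.Final
import Fermat.Agent.MU.S14.SI.PowMod

section MergeWrap_S14_SI_TameNonNorm -- from S14/SI/TameNonNorm.lean

/-!
# S14 / H2 Route I, (Td'): non-norms with prescribed behaviour at the other primes of `T`
-/

set_option autoImplicit false

open NumberField IsDedekindDomain

namespace Fermat.Agent.S14SI

/-- For `v ∤ p` (and `ζ_p ∈ F`) there is an element of `𝓞 F` outside `v` which is not a `p`-th
power residue at `v`. -/
lemma exists_not_isPowMod {F : Type*} [Field F] [NumberField F] (v : HeightOneSpectrum (𝓞 F))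
    {p : ℕ} (hp : p.Prime) {ζ : F} (hζ : IsPrimitiveRoot ζ p) (hv : (p : 𝓞 F) ∉ v.asIdeal) :
    ∃ c : 𝓞 F, c ∉ v.asIdeal ∧ ¬ IsPowMod F v p (c : F) := by
  classical
  obtain ⟨z, hz, hzp⟩ := exists_integer_of_isPrimitiveRoot hζ hp.pos
  have hmax := v.isMaximal
  let _ : Field (𝓞 F ⧸ v.asIdeal) := Ideal.Quotient.field v.asIdeal
  have hfin : Finite (𝓞 F ⧸ v.asIdeal) := Ideal.finiteQuotientOfFreeOfNeBot v.asIdeal v.ne_bot
  -- `ζ ≢ 1 mod v`
  have hz1 : Ideal.Quotient.mk v.asIdeal z ≠ 1 := by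
    intro h
    have hmem : z - 1 ∈ v.asIdeal := by
      rw [← Ideal.Quotient.eq_zero_iff_mem, map_sub, h, map_one, sub_self]
    have h1 : v.valuation F ((z - 1 : 𝓞 F) : F) < 1 :=
      (v.valuation_lt_one_iff_mem (K := F) _).mpr hmem
    have h2 := valuation_sub_one_eq_one v hζ hp.one_lt hv
    rw [← hz] at h2
    have : ((z - 1 : 𝓞 F) : F) = (z : F) - 1 := by push_cast; rfl
    rw [this, h2] at h1
    exact lt_irrefl _ h1
  -- the `p`-th power map on the residue field is not injective, hence not surjective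
  have hninj : ¬ Function.Injective (fun x : 𝓞 F ⧸ v.asIdeal => x ^ p) := by
    intro hinj
    apply hz1
    apply hinj
    show Ideal.Quotient.mk v.asIdeal z ^ p = 1 ^ p
    rw [← map_pow, hzp.pow_eq_one, map_one, one_pow]
  have hnsurj : ¬ Function.Surjective (fun x : 𝓞 F ⧸ v.asIdeal => x ^ p) :=
    fun h => hninj (Finite.injective_iff_surjective.mpr h)
  obtain ⟨cbar, hcbar⟩ : ∃ c : 𝓞 F ⧸ v.asIdeal, ∀ x, x ^ p ≠ c := by
    by_contra h
    simp only [not_exists, not_forall, not_not] at h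
    exact hnsurj fun c => h c
  obtain ⟨c, rfl⟩ := Ideal.Quotient.mk_surjective cbar
  refine ⟨c, ?_, ?_⟩
  · intro hc
    apply hcbar 0
    rw [zero_pow hp.ne_zero]
    exact (Ideal.Quotient.eq_zero_iff_mem.mpr hc).symm
  · rintro ⟨y, -, hy⟩
    apply hcbar (Ideal.Quotient.mk v.asIdeal y)
    have hmem : c - y ^ p ∈ v.asIdeal := by
      rw [← v.valuation_lt_one_iff_mem (K := F)]
      push_cast
      exact hy
    rw [← map_pow]
    exact (Ideal.Quotient.eq.mpr hmem).symm

/-- **(Td')** from `LocalNormProper`. -/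
theorem tameNonNorm_of (hL : LocalNormProper) : TameNonNorm := by
  intro p F M _ _ _ _ _ _ ζ S T v hp hζ hdeg hSp hgen hdisj hsurj hvT hvns
  classical
  have hvS : v ∉ S := fun h => (Finset.disjoint_left.mp hdisj h) hvT
  have hvp : (p : 𝓞 F) ∉ v.asIdeal := fun h => hvS (hSp v h)
  have hsub : ∀ u : Fˣ, u ∈ sUnits F (S : Set (HeightOneSpectrum (𝓞 F))) →
      u ∈ sUnits F ((S : Set (HeightOneSpectrum (𝓞 F))) ∪ ↑T) := by
    intro u hu w hw
    exact hu w (fun h => hw (Or.inl h))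
  -- a unit `U₁ ∈ E_S`, non-residue at `v`, residue at the other primes of `T`
  obtain ⟨c, hcv, hcn⟩ := exists_not_isPowMod v hp hζ hvp
  have hc1 : v.valuation F (c : F) = 1 :=
    (HeightOneSpectrum.valuation_eq_one_iff_notMem (K := F) v).mpr hcv
  obtain ⟨U₁, hU₁S, hU₁⟩ := hsurj (fun w => if w = v then (c : F)⁻¹ else 1) (by
    intro w _
    by_cases h : w = v
    · subst h; simp [hc1]
    · simp [h])
  have hU₁v : ¬ IsPowMod F v p (U₁ : F) := by
    intro h
    have h1 := hU₁ v hvT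
    simp only [if_true] at h1
    -- `c⁻¹ = (U₁ c⁻¹) U₁⁻¹` is a residue, hence `c` is
    have h2 : IsPowMod F v p ((c : F)⁻¹) := by
      have := h1.mul h.inv
      have e : (U₁ : F) * (c : F)⁻¹ * (U₁ : F)⁻¹ = (c : F)⁻¹ := by
        field_simp
      rwa [e] at this
    have h3 := h2.inv
    rw [inv_inv] at h3
    exact hcn h3
  have hU₁r : ∀ w ∈ T, w ≠ v → IsPowMod F w p (U₁ : F) := by
    intro w hw hne
    have := hU₁ w hw
    simpa [hne] using this
  have hU₁val : v.valuation F (U₁ : F) = 1 := hU₁S v hvS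
  -- an element `Y₁ ∈ E_{S ∪ T}` of valuation `exp (-1)` at `v`, residue at the other primes of `T`
  have hgen' : Subgroup.closure ((fun v : HeightOneSpectrum (𝓞 F) =>
      ClassGroup.mk0 ⟨v.asIdeal, mem_nonZeroDivisors_of_ne_zero v.ne_bot⟩) ''
        (S : Set (HeightOneSpectrum (𝓞 F)))) = ⊤ := hgen
  obtain ⟨y₁, hy₁⟩ := exists_valuation_eq_of_closure_eq_top (R := 𝓞 F) (K := F) hgen'
    (Finsupp.single v 1)
  have hy₁v : v.valuation F (y₁ : F) = WithZero.exp (-1 : ℤ) := by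
    have := hy₁ v hvS
    simpa using this
  have hy₁w : ∀ w, w ∉ S → w ≠ v → w.valuation F (y₁ : F) = 1 := by
    intro w hwS hne
    have := hy₁ w hwS
    rw [Finsupp.single_apply, if_neg (fun h => hne h.symm)] at this
    simpa using this
  obtain ⟨u', hu'S, hu'⟩ := hsurj (fun w => if w = v then 1 else (y₁ : F)) (by
    intro w hw
    by_cases h : w = v
    · simp [h]
    · simp only [if_neg h]
      exact hy₁w w (fun hS => (Finset.disjoint_left.mp hdisj hS) hw) h)
  have hY₁val : v.valuation F ((u' * y₁ : Fˣ) : F) = WithZero.exp (-1 : ℤ) := by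
    rw [Units.val_mul, Valuation.map_mul, hu'S v hvS, one_mul, hy₁v]
  have hY₁r : ∀ w ∈ T, w ≠ v → IsPowMod F w p ((u' * y₁ : Fˣ) : F) := by
    intro w hw hne
    have := hu' w hw
    simpa [hne] using this
  have hY₁mem : u' * y₁ ∈ sUnits F ((S : Set (HeightOneSpectrum (𝓞 F))) ∪ ↑T) := by
    intro w hw
    have hwS : w ∉ S := fun h => hw (Or.inl h)
    have hwT : w ∉ T := fun h => hw (Or.inr h)
    have hwv : w ≠ v := fun h => hwT (h ▸ hvT)
    show w.valuation F ((u' * y₁ : Fˣ) : F) = 1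
    rw [Units.val_mul, Valuation.map_mul, hu'S w hwS, one_mul, hy₁w w hwS hwv]
  -- one of the two is not a local norm
  by_cases hY : IsLocalNormAt F M v p ((u' * y₁ : Fˣ) : F)
  · refine ⟨U₁, hsub U₁ hU₁S, ?_, hU₁r⟩
    intro hU
    exact hL p F M v _ _ hp hdeg hvp hvns hY₁val hU₁val hU₁v hY hU
  · exact ⟨u' * y₁, hY₁mem, hY, hY₁r⟩

end Fermat.Agent.S14SI
end MergeWrap_S14_SI_TameNonNorm
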