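import Fermat.Agent.MU.S17.W.Final

section MergeWrap_S14_SI_ThetaCount -- from S14/SI/ThetaCount.lean

/-!
# S14 / H2 Route I, WP8: the index computation `ThetaCount ⟸ SUnitRank + LocalCount`

`Θ : Fˣ → Cl_F`, `x ↦ ∏_{v ∈ S} [v] ^ ord_v x` is onto when `S` generates `Cl_F` (CRT), and maps
`U_S` (local `p`-th powers at `S`) and `E_{S ∪ T}` into `H_T = ⟨[v] (v ∈ T), Cl ^ p⟩`.  Hence
`[Cl : H_T]` divides `[Fˣ : U_S E] = [Fˣ : U_S] / [E : E ∩ U_S]`, and `E ∩ U_S = E ^ p` by the key
hypothesis.  (helper10)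
-/

set_option autoImplicit false

open NumberField IsDedekindDomain

namespace Fermat.Agent.S14SI

variable {F : Type*} [Field F] [NumberField F]

/-- The multiplicity of `v` in the principal ideal `(a)`. -/
noncomputable def thetaMult (v : HeightOneSpectrum (𝓞 F)) (a : 𝓞 F) : ℕ :=
  (Associates.mk v.asIdeal).count (Associates.mk (Ideal.span {a} : Ideal (𝓞 F))).factors

lemma thetaMult_valuation (v : HeightOneSpectrum (𝓞 F)) {a : 𝓞 F} (ha : a ≠ 0) :
    v.valuation F (a : F) = WithZero.exp (-(thetaMult v a : ℤ)) := by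
  rw [HeightOneSpectrum.valuation_of_algebraMap, HeightOneSpectrum.intValuation_if_neg v ha]
  rfl

/-- The class of a principal ideal, factored over any finite set of primes containing its
support, is trivial. -/
lemma prod_primeClass_pow_thetaMult {a : 𝓞 F} (ha : a ≠ 0)
    (s : Finset (HeightOneSpectrum (𝓞 F)))
    (hs : ∀ v : HeightOneSpectrum (𝓞 F), a ∈ v.asIdeal → v ∈ s) :
    ∏ v ∈ s, primeClass F v ^ thetaMult v a = 1 := by
  classical
  have hI : (Ideal.span {a} : Ideal (𝓞 F)) ≠ 0 := by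
    rw [Ne, Ideal.zero_eq_bot, Ideal.span_singleton_eq_bot]; exact ha
  have h1 := Ideal.finprod_heightOneSpectrum_factorization hI
  have hsupp : (Function.mulSupport fun v : HeightOneSpectrum (𝓞 F) =>
      v.maxPowDividing (Ideal.span {a})) ⊆ ↑s := by
    intro v hv
    rw [Function.mem_mulSupport] at hv
    apply hs
    by_contra hmem
    apply hv
    show v.asIdeal ^ _ = 1
    have : (Associates.mk v.asIdeal).count (Associates.mk (Ideal.span {a} : Ideal (𝓞 F))).factors
        = 0 := by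
      by_contra hne
      apply hmem
      have := (Associates.count_ne_zero_iff_dvd hI v.irreducible).mp hne
      exact (Ideal.dvd_span_singleton).mp this
    rw [this, pow_zero]
  rw [finprod_eq_prod_of_mulSupport_subset _ hsupp] at h1
  -- lift to `(Ideal R)⁰`
  have h2 : (∏ v ∈ s, (⟨v.asIdeal, mem_nonZeroDivisors_of_ne_zero v.ne_bot⟩ :
      nonZeroDivisors (Ideal (𝓞 F))) ^ thetaMult v a) =
      ⟨Ideal.span {a}, mem_nonZeroDivisors_of_ne_zero hI⟩ := by
    apply Subtype.ext
    rw [Submonoid.coe_finsetProd]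
    simp only [SubmonoidClass.coe_pow]
    exact h1
  have h3 := congrArg (ClassGroup.mk0 (R := 𝓞 F)) h2
  rw [map_prod] at h3
  simp only [map_pow] at h3
  have h4 : ClassGroup.mk0 (⟨Ideal.span {a}, mem_nonZeroDivisors_of_ne_zero hI⟩ :
      nonZeroDivisors (Ideal (𝓞 F))) = 1 :=
    (ClassGroup.mk0_eq_one_iff (mem_nonZeroDivisors_of_ne_zero hI)).mpr ⟨⟨a, rfl⟩⟩
  exact h3.trans h4

/-- The additive valuation (with the sign of `log v`) of a nonzero element. -/
noncomputable def thetaOrd (v : HeightOneSpectrum (𝓞 F)) (x : Fˣ) : ℤ :=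
  Multiplicative.toAdd (v.valuationOfNeZero x)

lemma thetaOrd_valuation (v : HeightOneSpectrum (𝓞 F)) (x : Fˣ) :
    v.valuation F (x : F) = WithZero.exp (thetaOrd v x) := by
  rw [← HeightOneSpectrum.valuationOfNeZero_eq]
  rfl

lemma thetaOrd_mul (v : HeightOneSpectrum (𝓞 F)) (x y : Fˣ) :
    thetaOrd v (x * y) = thetaOrd v x + thetaOrd v y := by
  unfold thetaOrd
  rw [map_mul]
  rfl

lemma thetaOrd_pow (v : HeightOneSpectrum (𝓞 F)) (x : Fˣ) (n : ℕ) :
    thetaOrd v (x ^ n) = n * thetaOrd v x := by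
  unfold thetaOrd
  rw [map_pow, toAdd_pow, nsmul_eq_mul]

lemma thetaOrd_inv (v : HeightOneSpectrum (𝓞 F)) (x : Fˣ) :
    thetaOrd v x⁻¹ = - thetaOrd v x := by
  unfold thetaOrd
  rw [map_inv]
  rfl

lemma thetaOrd_eq_zero_iff (v : HeightOneSpectrum (𝓞 F)) (x : Fˣ) :
    thetaOrd v x = 0 ↔ v.valuation F (x : F) = 1 := by
  rw [thetaOrd_valuation, WithZero.exp_eq_one]

lemma thetaOrd_eq_of_valuation {v : HeightOneSpectrum (𝓞 F)} {x : Fˣ} {n : ℤ}
    (h : v.valuation F (x : F) = WithZero.exp n) : thetaOrd v x = n := by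
  rw [thetaOrd_valuation] at h
  exact WithZero.exp_injective h

/-- The class of a principal fractional ideal, factored over any finite set of primes containing
its support, is trivial. -/
lemma prod_primeClass_zpow_thetaOrd (x : Fˣ) (s : Finset (HeightOneSpectrum (𝓞 F)))
    (hs : ∀ v : HeightOneSpectrum (𝓞 F), v.valuation F (x : F) ≠ 1 → v ∈ s) :
    ∏ v ∈ s, primeClass F v ^ thetaOrd v x = 1 := by
  classical
  obtain ⟨a, d, hd, hx⟩ := IsFractionRing.div_surjective (A := 𝓞 F) (x : F)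
  have hd0 : d ≠ 0 := nonZeroDivisors.ne_zero hd
  have hdF : (algebraMap (𝓞 F) F d) ≠ 0 := by
    simpa using hd0
  have ha0 : a ≠ 0 := by
    rintro rfl
    rw [map_zero, zero_div] at hx
    exact x.ne_zero hx.symm
  have hIa : (Ideal.span {a} : Ideal (𝓞 F)) ≠ 0 := by
    rw [Ne, Ideal.zero_eq_bot, Ideal.span_singleton_eq_bot]; exact ha0
  have hId : (Ideal.span {d} : Ideal (𝓞 F)) ≠ 0 := by
    rw [Ne, Ideal.zero_eq_bot, Ideal.span_singleton_eq_bot]; exact hd0
  let s' : Finset (HeightOneSpectrum (𝓞 F)) :=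
    s ∪ ((Ideal.finite_factors hIa).toFinset ∪ (Ideal.finite_factors hId).toFinset)
  have hord : ∀ v : HeightOneSpectrum (𝓞 F),
      thetaOrd v x = (thetaMult v d : ℤ) - (thetaMult v a : ℤ) := by
    intro v
    apply thetaOrd_eq_of_valuation
    rw [← hx, map_div₀, thetaMult_valuation v ha0, thetaMult_valuation v hd0, ← WithZero.exp_sub]
    congr 1
    ring
  have h1 : ∏ v ∈ s, primeClass F v ^ thetaOrd v x = ∏ v ∈ s', primeClass F v ^ thetaOrd v x := by
    apply Finset.prod_subset Finset.subset_union_left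
    intro v _ hv
    have : thetaOrd v x = 0 := by
      rw [thetaOrd_eq_zero_iff]
      by_contra hne
      exact hv (hs v hne)
    rw [this, zpow_zero]
  rw [h1]
  have ha1 := prod_primeClass_pow_thetaMult ha0 s' (fun v hv => by
    apply Finset.mem_union_right
    apply Finset.mem_union_left
    rw [Set.Finite.mem_toFinset]
    exact (Ideal.dvd_span_singleton).mpr hv)
  have hd1 := prod_primeClass_pow_thetaMult hd0 s' (fun v hv => by
    apply Finset.mem_union_right
    apply Finset.mem_union_right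
    rw [Set.Finite.mem_toFinset]
    exact (Ideal.dvd_span_singleton).mpr hv)
  calc ∏ v ∈ s', primeClass F v ^ thetaOrd v x
      = ∏ v ∈ s', (primeClass F v ^ thetaMult v d * (primeClass F v ^ thetaMult v a)⁻¹) := by
        apply Finset.prod_congr rfl
        intro v _
        rw [hord v, zpow_sub, zpow_natCast, zpow_natCast]
    _ = 1 := by
        rw [Finset.prod_mul_distrib, Finset.prod_inv_distrib, ha1, hd1, inv_one, mul_one]

/-- The homomorphism `Θ : Fˣ → Cl_F`, `x ↦ ∏_{v ∈ S} [v] ^ ord_v x`. -/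
noncomputable def thetaHom (S : Finset (HeightOneSpectrum (𝓞 F))) : Fˣ →* ClassGroup (𝓞 F) :=
  MonoidHom.mk' (fun x => ∏ v ∈ S, primeClass F v ^ thetaOrd v x) (by
    intro x y
    simp only [thetaOrd_mul, zpow_add, Finset.prod_mul_distrib])

lemma thetaHom_apply (S : Finset (HeightOneSpectrum (𝓞 F))) (x : Fˣ) :
    thetaHom S x = ∏ v ∈ S, primeClass F v ^ thetaOrd v x := rfl


/-- CRT: an element of `𝓞 F` of valuation `exp (-1)` at `v₀ ∈ S` which is a unit at the other
primes of `S`. -/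
lemma exists_thetaOrd_single (S : Finset (HeightOneSpectrum (𝓞 F)))
    {v₀ : HeightOneSpectrum (𝓞 F)} (hv₀ : v₀ ∈ S) :
    ∃ x : Fˣ, thetaOrd v₀ x = -1 ∧ ∀ v ∈ S, v ≠ v₀ → thetaOrd v x = 0 := by
  classical
  obtain ⟨π, hπ⟩ := v₀.intValuation_exists_uniformizer
  obtain ⟨y, hy⟩ := IsDedekindDomain.exists_forall_sub_mem_ideal
    (s := S) (fun v : HeightOneSpectrum (𝓞 F) => v.asIdeal)
    (fun v => if v = v₀ then 2 else 1) (fun v _ => v.prime)
    (fun v _ w _ hvw h => hvw (HeightOneSpectrum.ext h))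
    (fun v => if (v : HeightOneSpectrum (𝓞 F)) = v₀ then π else 1)
  have h0 : v₀.intValuation y = WithZero.exp (-1 : ℤ) := by
    have h := hy v₀ hv₀
    simp only [if_true] at h
    have h2 : v₀.intValuation (y - π) ≤ WithZero.exp (-(2 : ℕ) : ℤ) :=
      (v₀.intValuation_le_pow_iff_mem _ 2).mpr h
    have h3 : v₀.intValuation (y - π) < v₀.intValuation π := by
      rw [hπ]
      refine lt_of_le_of_lt h2 ?_
      rw [WithZero.exp_lt_exp]
      norm_num
    have : y = π + (y - π) := by ring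
    rw [this, Valuation.map_add_eq_of_lt_left _ h3, hπ]
  have hy0 : (algebraMap (𝓞 F) F y) ≠ 0 := by
    intro h
    have hy0 : y = 0 := by simpa using h
    rw [hy0, map_zero] at h0
    exact WithZero.exp_ne_zero h0.symm
  refine ⟨Units.mk0 _ hy0, ?_, ?_⟩
  · apply thetaOrd_eq_of_valuation
    rw [Units.val_mk0, HeightOneSpectrum.valuation_of_algebraMap, h0]
  · intro v hv hne
    rw [thetaOrd_eq_zero_iff, Units.val_mk0, HeightOneSpectrum.valuation_of_algebraMap,
      HeightOneSpectrum.intValuation_eq_one_iff]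
    intro hmem
    have h := hy v hv
    simp only [if_neg hne, pow_one] at h
    have h1 : (1 : 𝓞 F) ∈ v.asIdeal := by
      have := v.asIdeal.sub_mem hmem h
      simpa using this
    exact v.isPrime.ne_top ((Ideal.eq_top_iff_one _).mpr h1)

/-- `Θ` is surjective if `S` generates the class group. -/
lemma thetaHom_surjective (S : Finset (HeightOneSpectrum (𝓞 F)))
    (hS : GeneratesClassGroup F S) : Function.Surjective (thetaHom S) := by
  classical
  rw [← MonoidHom.range_eq_top, eq_top_iff, ← hS, Subgroup.closure_le]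
  rintro _ ⟨v₀, hv₀, rfl⟩
  obtain ⟨x, hx0, hx⟩ := exists_thetaOrd_single S hv₀
  refine ⟨x⁻¹, ?_⟩
  rw [thetaHom_apply, Finset.prod_eq_single v₀]
  · rw [thetaOrd_inv, hx0, neg_neg, zpow_one]
  · intro v hv hne
    rw [thetaOrd_inv, hx v hv hne, neg_zero, zpow_zero]
  · intro h; exact absurd hv₀ h

/-- `p ∣ ord_v x` if `x` is a local `p`-th power at `v`. -/
lemma dvd_thetaOrd_of_isLocalPow {p : ℕ} {ζ : F} (hζ : IsPrimitiveRoot ζ p) (hp : 0 < p)
    (v : HeightOneSpectrum (𝓞 F)) (x : Fˣ) (h : IsLocalPow F v p ζ (x : F)) :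
    (p : ℤ) ∣ thetaOrd v x := by
  obtain ⟨y, hy, h1⟩ := h
  have hle : v.valuation F (ζ - 1) ^ p ≤ 1 := pow_le_one' (valuation_sub_one_le_one v hζ hp) p
  have hlt : v.valuation F ((x : F) * y ^ p - 1) < 1 := lt_of_lt_of_le h1 hle
  have hw1 : v.valuation F ((x : F) * y ^ p) = 1 := by
    have : (x : F) * y ^ p = 1 + ((x : F) * y ^ p - 1) := by ring
    rw [this]
    exact Valuation.map_one_add_of_lt _ hlt
  have h2 : thetaOrd v (x * (Units.mk0 y hy) ^ p) = 0 := by
    rw [thetaOrd_eq_zero_iff]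
    simpa using hw1
  rw [thetaOrd_mul, thetaOrd_pow] at h2
  exact ⟨- thetaOrd v (Units.mk0 y hy), by linarith⟩

lemma primeClass_mem_classSubgroup {p : ℕ} {T : Finset (HeightOneSpectrum (𝓞 F))}
    {v : HeightOneSpectrum (𝓞 F)} (hv : v ∈ T) : primeClass F v ∈ classSubgroup F p T :=
  Subgroup.subset_closure (Or.inl ⟨v, hv, rfl⟩)

lemma pow_mem_classSubgroup (p : ℕ) (T : Finset (HeightOneSpectrum (𝓞 F)))
    (c : ClassGroup (𝓞 F)) : c ^ p ∈ classSubgroup F p T :=
  Subgroup.subset_closure (Or.inr ⟨c, rfl⟩)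

/-- `Θ` maps `U_S` into `H_T`. -/
lemma thetaHom_mem_of_mem_localPowSubgroup {p : ℕ} {ζ : F} (hζ : IsPrimitiveRoot ζ p)
    (hp : 1 < p) (S T : Finset (HeightOneSpectrum (𝓞 F))) {x : Fˣ}
    (hx : x ∈ localPowSubgroup F p ζ hζ hp S) : thetaHom S x ∈ classSubgroup F p T := by
  rw [thetaHom_apply]
  refine Subgroup.prod_mem _ (fun v hv => ?_)
  obtain ⟨k, hk⟩ := dvd_thetaOrd_of_isLocalPow hζ (by omega) v x (hx v hv)
  rw [hk, mul_comm, zpow_mul, zpow_natCast]
  exact pow_mem_classSubgroup p T _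

/-- `Θ` maps `E_{S ∪ T}` into `H_T`. -/
lemma thetaHom_mem_of_mem_sUnits (p : ℕ) (S T : Finset (HeightOneSpectrum (𝓞 F)))
    (hST : Disjoint S T) {x : Fˣ} (hx : x ∈ sUnits F (↑S ∪ ↑T)) :
    thetaHom S x ∈ classSubgroup F p T := by
  have h1 := prod_primeClass_zpow_thetaOrd x (S.disjUnion T hST) (fun v hv => by
    rw [Finset.mem_disjUnion]
    by_contra hne
    apply hv
    apply (mem_sUnits _ x).mp hx v
    rintro (h | h)
    · exact hne (Or.inl (by exact_mod_cast h))
    · exact hne (Or.inr (by exact_mod_cast h)))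
  rw [Finset.prod_disjUnion] at h1
  rw [thetaHom_apply, eq_inv_of_mul_eq_one_left h1]
  refine Subgroup.inv_mem _ (Subgroup.prod_mem _ (fun v hv => ?_))
  exact Subgroup.zpow_mem _ (primeClass_mem_classSubgroup hv) _

/-- The degree of a number field containing a primitive `p`-th root of unity, `p` an odd prime,
is even. -/
lemma even_finrank_of_isPrimitiveRoot {p : ℕ} (hp : p.Prime) (hp2 : p ≠ 2) {ζ : F}
    (hζ : IsPrimitiveRoot ζ p) : 2 ∣ Module.finrank ℚ F := by
  have h1 : (minpoly ℚ ζ).natDegree = p - 1 := by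
    rw [← Polynomial.cyclotomic_eq_minpoly_rat hζ hp.pos, Polynomial.natDegree_cyclotomic,
      Nat.totient_prime hp]
  have h2 : (minpoly ℚ ζ).natDegree ∣ Module.finrank ℚ F :=
    minpoly.degree_dvd (Algebra.IsIntegral.isIntegral ζ)
  rw [h1] at h2
  have h3 : 2 ∣ p - 1 := by
    rcases hp.eq_two_or_odd with h | h
    · exact absurd h hp2
    · omega
  exact h3.trans h2


/-- **WP8 (index computation)**. -/
theorem thetaCount (h1 : SUnitRank) (h2 : LocalCount) : ThetaCount := by
  intro p F _ _ ζ S T hp hp2 hζ hgen hdisj hcard hkey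
  classical
  set U : Subgroup Fˣ := localPowSubgroup F p ζ hζ hp.one_lt S with hU
  set E : Subgroup Fˣ := sUnits F (↑S ∪ ↑T) with hE
  set H : Subgroup (ClassGroup (𝓞 F)) := classSubgroup F p T with hH
  obtain ⟨hU0, hUle⟩ := h2 p F ζ S hp hζ
  -- the `S ∪ T`-unit rank
  have hrank := h1 p F ζ (S.disjUnion T hdisj) hp hp2 hζ
  rw [Finset.coe_disjUnion, Finset.card_disjUnion] at hrank
  -- `U ⊓ E ≤ E ^ p`
  have hUE : U ⊓ E ≤ sUnitsPow F p (↑S ∪ ↑T) := by
    rintro x ⟨hxU, hxE⟩
    obtain ⟨y, hy⟩ := hkey x hxE hxU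
    have hy0 : y ≠ 0 := by
      rintro rfl
      rw [zero_pow hp.ne_zero] at hy
      exact x.ne_zero hy.symm
    refine ⟨Units.mk0 y hy0, ?_, ?_⟩
    · show Units.mk0 y hy0 ∈ sUnits F (↑S ∪ ↑T)
      rw [mem_sUnits]
      intro v hv
      have hx1 := (mem_sUnits _ x).mp hxE v hv
      rw [← thetaOrd_eq_zero_iff] at hx1 ⊢
      have hxy : x = (Units.mk0 y hy0) ^ p := by
        apply Units.ext
        simp [hy]
      rw [hxy, thetaOrd_pow] at hx1
      rcases mul_eq_zero.mp hx1 with h | h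
      · exact absurd (by exact_mod_cast h) hp.ne_zero
      · exact h
    · apply Units.ext
      simp [hy]
  -- the comap of `H` contains `E ⊔ U`
  have hle : E ⊔ U ≤ H.comap (thetaHom S) := by
    apply sup_le
    · intro x hx
      exact thetaHom_mem_of_mem_sUnits p S T hdisj hx
    · intro x hx
      exact thetaHom_mem_of_mem_localPowSubgroup hζ hp.one_lt S T hx
  have hidx : H.index ∣ (E ⊔ U).index := by
    rw [← Subgroup.index_comap_of_surjective H (thetaHom_surjective S hgen)]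
    exact Subgroup.index_dvd_of_le hle
  have hmul : U.relIndex (E ⊔ U) * (E ⊔ U).index = U.index :=
    Subgroup.relIndex_mul_index le_sup_right
  have hrel : U.relIndex (E ⊔ U) = U.relIndex E := Subgroup.relIndex_sup_right E U
  have hdvd : p ^ (Module.finrank ℚ F / 2 + (S.card + T.card)) ∣ U.relIndex E := by
    rw [← hrank, ← Subgroup.inf_relIndex_right U E]
    exact Subgroup.relIndex_dvd_of_le_left E hUE
  have heven := even_finrank_of_isPrimitiveRoot hp hp2 hζ
  -- arithmetic
  have hm0 : (E ⊔ U).index ≠ 0 := by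
    intro h
    rw [h, mul_zero] at hmul
    exact hU0 hmul.symm
  have hr0 : U.relIndex E ≠ 0 := by
    intro h
    rw [hrel, h, zero_mul] at hmul
    exact hU0 hmul.symm
  obtain ⟨k, hk⟩ := hdvd
  have hk0 : 0 < k := by
    rcases Nat.eq_zero_or_pos k with h | h
    · rw [h, mul_zero] at hk
      exact absurd hk hr0
    · exact h
  set e := Module.finrank ℚ F / 2 + (S.card + T.card) with he
  have hexp : 2 * S.card + Module.finrank ℚ F = e + 1 := by
    obtain ⟨c, hc⟩ := heven
    rw [hc] at hcard he ⊢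
    rw [Nat.mul_div_cancel_left _ (by norm_num : 0 < 2)] at hcard he
    omega
  have hfinal : (E ⊔ U).index ≤ p := by
    have h3 : p ^ e * (E ⊔ U).index ≤ p ^ e * p := by
      calc p ^ e * (E ⊔ U).index ≤ (p ^ e * k) * (E ⊔ U).index := by
            apply Nat.mul_le_mul_right
            exact Nat.le_mul_of_pos_right _ hk0
        _ = U.index := by rw [← hk, ← hrel, hmul]
        _ ≤ p ^ (2 * S.card + Module.finrank ℚ F) := hUle
        _ = p ^ e * p := by rw [hexp, pow_succ]
    exact Nat.le_of_mul_le_mul_left h3 (pow_pos hp.pos e)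
  exact (Nat.le_of_dvd (Nat.pos_of_ne_zero hm0) hidx).trans hfinal

end Fermat.Agent.S14SI
end MergeWrap_S14_SI_ThetaCount
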