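import Fermat.Agent.MU.S17.W.Final
import Fermat.Agent.MU.S14.SI.PowMod
import Fermat.Agent.MU.S14.SI.TameH1

section MergeWrap_S14_SI_Tame -- from S14/SI/Tame.lean

/-!
# S14 / H2 Route I, WP6: the tame first inequality, assembly

`TameFirstIneq` from `TameHerbrand`, `TameH1`, `KummerUnram`, `TameNonNorm`.
-/

set_option autoImplicit false

open NumberField IsDedekindDomain

namespace Fermat.Agent.S14SI

section LocalNorm

variable (F M : Type*) [Field F] [NumberField F] [Field M] [Algebra F M] [FiniteDimensional F M]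

/-- The subgroup of `Fˣ` of local norms at `v`. -/
def localNormSubgroup (v : HeightOneSpectrum (𝓞 F)) (p : ℕ) : Subgroup Fˣ where
  carrier := {y | IsLocalNormAt F M v p (y : F)}
  one_mem' := ⟨1, one_ne_zero, by simpa using isPowMod_one v p⟩
  mul_mem' := by
    rintro a b ⟨z, hz, ha⟩ ⟨z', hz', hb⟩
    refine ⟨z * z', mul_ne_zero hz hz', ?_⟩
    have := ha.mul hb
    rw [map_mul, mul_inv, Units.val_mul]
    convert this using 1
    ring
  inv_mem' := by
    rintro a ⟨z, hz, ha⟩
    refine ⟨z⁻¹, inv_ne_zero hz, ?_⟩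
    have := ha.inv
    rw [Algebra.norm_inv, Units.val_inv_eq_inv_val]
    convert this using 1
    rw [mul_inv]

variable {F M}

lemma mem_localNormSubgroup {v : HeightOneSpectrum (𝓞 F)} {p : ℕ} {y : Fˣ} :
    y ∈ localNormSubgroup F M v p ↔ IsLocalNormAt F M v p (y : F) := Iff.rfl

omit [FiniteDimensional F M] in
/-- A `p`-th power residue at `v` is a local norm at `v`. -/
lemma IsPowMod.isLocalNormAt {v : HeightOneSpectrum (𝓞 F)} {p : ℕ} {y : F}
    (h : IsPowMod F v p y) : IsLocalNormAt F M v p y :=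
  ⟨1, one_ne_zero, by simp [h]⟩

/-- Norms are local norms. -/
lemma normUnits_mem_localNormSubgroup (v : HeightOneSpectrum (𝓞 F)) (p : ℕ) (z : Mˣ) :
    normUnits F M z ∈ localNormSubgroup F M v p := by
  refine ⟨(z : M), z.ne_zero, ?_⟩
  have h0 : Algebra.norm F (z : M) ≠ 0 := (normUnits F M z).ne_zero
  have : ((normUnits F M z : Fˣ) : F) = Algebra.norm F (z : M) := rfl
  rw [this, mul_inv_cancel₀ h0]
  exact isPowMod_one v p

/-- `p`-th powers are local norms when `[M : F] = p`. -/
lemma pow_mem_localNormSubgroup (v : HeightOneSpectrum (𝓞 F)) {p : ℕ}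
    (hdeg : Module.finrank F M = p) (y : Fˣ) : y ^ p ∈ localNormSubgroup F M v p := by
  refine ⟨algebraMap F M (y : F), by simp, ?_⟩
  rw [Algebra.norm_algebraMap, hdeg, Units.val_pow_eq_pow_val,
    mul_inv_cancel₀ (pow_ne_zero _ y.ne_zero)]
  exact isPowMod_one v p

end LocalNorm

section GroupTheory

/-- Membership in a finite infimum of subgroups. -/
lemma mem_finset_inf_subgroup {G ι : Type*} [Group G] {s : Finset ι} {f : ι → Subgroup G}
    {x : G} : x ∈ s.inf f ↔ ∀ i ∈ s, x ∈ f i := by
  classical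
  induction s using Finset.induction_on with
  | empty => simp
  | insert i s _ ih => simp [Finset.inf_insert, Subgroup.mem_inf, ih]

/-- If `A / (A ∩ L)` is finite, of exponent `p` and non-trivial, then `p` divides its order. -/
lemma prime_dvd_relIndex_of_pow_mem {G : Type*} [CommGroup G] (L A : Subgroup G) {p : ℕ}
    (hp : p.Prime) (hfin : L.relIndex A ≠ 0) {y : G} (hyA : y ∈ A) (hyL : y ∉ L)
    (hpow : ∀ g ∈ A, g ^ p ∈ L) : p ∣ L.relIndex A := by
  have : Fact p.Prime := ⟨hp⟩
  -- work in the quotient `A ⧸ L.subgroupOf A`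
  have hfi : (L.subgroupOf A).FiniteIndex := ⟨hfin⟩
  have : Finite (A ⧸ L.subgroupOf A) := Subgroup.finite_quotient_of_finiteIndex
  let q : A →* A ⧸ L.subgroupOf A := QuotientGroup.mk' _
  let y' : A := ⟨y, hyA⟩
  have hq1 : q y' ≠ 1 := by
    intro h
    have : y' ∈ L.subgroupOf A := (QuotientGroup.eq_one_iff y').mp h
    exact hyL (Subgroup.mem_subgroupOf.mp this)
  have hqp : q y' ^ p = 1 := by
    rw [← map_pow]
    refine (QuotientGroup.eq_one_iff _).mpr ?_
    exact Subgroup.mem_subgroupOf.mpr (by simpa using hpow y hyA)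
  have hord : orderOf (q y') = p := orderOf_eq_prime hqp hq1
  have hdvd : orderOf (q y') ∣ Nat.card (A ⧸ L.subgroupOf A) := orderOf_dvd_natCard _
  rw [hord] at hdvd
  exact hdvd

end GroupTheory

section Chain

variable {F M : Type} [Field F] [NumberField F] [Field M] [NumberField M] [Algebra F M]

/-- The chain argument: if for every `v ∈ R` there is an element of `E` which is not a local norm
at `v` but is a local norm at all the other primes of `R`, then `p ^ |R|` divides the index in `E`
of the subgroup of elements which are local norms at all primes of `R`. -/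
lemma pow_card_dvd_relIndex_inf [DecidableEq (HeightOneSpectrum (𝓞 F))] {p : ℕ} (hp : p.Prime)
    (hdeg : Module.finrank F M = p) (E : Subgroup Fˣ)
    (R : Finset (HeightOneSpectrum (𝓞 F)))
    (hfin : (R.inf fun v => localNormSubgroup F M v p).relIndex E ≠ 0)
    (hy : ∀ v ∈ R, ∃ y : Fˣ, y ∈ E ∧ y ∉ localNormSubgroup F M v p ∧
      ∀ v' ∈ R, v' ≠ v → y ∈ localNormSubgroup F M v' p) :
    p ^ R.card ∣ (R.inf fun v => localNormSubgroup F M v p).relIndex E := by
  induction R using Finset.induction_on with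
  | empty => simp
  | insert v R hvR ih =>
    rw [Finset.card_insert_of_notMem hvR, Finset.inf_insert, pow_succ, mul_comm]
    rw [Finset.inf_insert] at hfin
    set W := R.inf fun v => localNormSubgroup F M v p with hW
    rw [← Subgroup.relIndex_inf_mul_relIndex] at hfin ⊢
    have hfin1 : (localNormSubgroup F M v p).relIndex (W ⊓ E) ≠ 0 := left_ne_zero_of_mul hfin
    have hfin2 : W.relIndex E ≠ 0 := right_ne_zero_of_mul hfin
    refine mul_dvd_mul ?_ (ih hfin2 ?_)
    · obtain ⟨y, hyE, hyv, hyR⟩ := hy v (Finset.mem_insert_self v R)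
      have hyW : y ∈ W := by
        rw [hW]
        exact mem_finset_inf_subgroup.mpr fun v' hv' =>
          hyR v' (Finset.mem_insert_of_mem hv') (fun h => hvR (h ▸ hv'))
      exact prime_dvd_relIndex_of_pow_mem _ _ hp hfin1 (Subgroup.mem_inf.mpr ⟨hyW, hyE⟩) hyv
        (fun g _ => pow_mem_localNormSubgroup v hdeg g)
    · intro v' hv'
      obtain ⟨y, hyE, hyv, hyR⟩ := hy v' (Finset.mem_insert_of_mem hv')
      exact ⟨y, hyE, hyv, fun v'' hv'' hne => hyR v'' (Finset.mem_insert_of_mem hv'') hne⟩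

end Chain

/-- **WP6 (tame first inequality)**, from its sub-packages. -/
theorem tameFirstIneq_of (hTa : TameHerbrand) (hTb : TameH1) (hU : KummerUnram)
    (hN : TameNonNorm) : TameFirstIneq := by
  intro p F M _ _ _ _ _ _ ζ x α S T hp hp2 hζ hdeg hα hαF hx hSp hgen hdisj hsplit hsurj
  classical
  -- a nontrivial automorphism
  have hcard : Nat.card (M ≃ₐ[F] M) = p := by rw [IsGalois.card_aut_eq_finrank, hdeg]
  obtain ⟨σ, hσ⟩ : ∃ σ : M ≃ₐ[F] M, σ ≠ 1 := by
    have hfin : Finite (M ≃ₐ[F] M) :=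
      Nat.finite_of_card_ne_zero (by rw [hcard]; exact hp.ne_zero)
    have : Nontrivial (M ≃ₐ[F] M) :=
      Finite.one_lt_card_iff_nontrivial.mp (by rw [hcard]; exact hp.one_lt)
    exact exists_ne 1
  set S' : Set (HeightOneSpectrum (𝓞 F)) := ↑S ∪ ↑T with hS'
  have hS'fin : S'.Finite := (S.finite_toSet).union (T.finite_toSet)
  -- `M/F` is unramified outside `S'`
  have hunr : ∀ w : HeightOneSpectrum (𝓞 M), w ∉ primesAboveSet F M S' →
      w.asIdeal.ramificationIdx (𝓞 F) = 1 := by
    intro w hw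
    have hv : primeBelow (F := F) w ∉ S' := fun h => hw ((mem_primesAboveSet_iff S' w).mpr h)
    have hvS : primeBelow (F := F) w ∉ S := fun h => hv (Or.inl h)
    have hvp : (p : 𝓞 F) ∉ (primeBelow (F := F) w).asIdeal := fun h => hvS (hSp _ h)
    have hvx : (primeBelow (F := F) w).valuation F (x : F) = 1 := hx _ hv
    have hover : w.asIdeal.LiesOver (primeBelow (F := F) w).asIdeal := ⟨rfl⟩
    exact hU p F M ζ (x : F) α (primeBelow (F := F) w) w.asIdeal hp hζ hdeg hα hαF hvp hvx
      w.isPrime hover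
  have hgen' : Subgroup.closure (primeClass F '' S') = ⊤ := by
    refine top_le_iff.mp ?_
    have hgen0 : Subgroup.closure (primeClass F '' (S : Set (HeightOneSpectrum (𝓞 F)))) = ⊤ := hgen
    rw [← hgen0]
    exact Subgroup.closure_mono (Set.image_mono Set.subset_union_left)
  obtain ⟨h0ne, -, hH⟩ := hTa p F M σ S' hp hp2 hdeg hσ hS'fin
  have hH1 := hTb p F M σ S' hp hdeg hσ hS'fin hunr hgen'
  rw [Subgroup.relIndex_eq_one.mpr hH1, mul_one] at hH
  -- the non-split primes all lie in `T`
  set T0 := T.filter (fun v => ¬ SplitsCompletely F M v) with hT0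
  have ht : {v | v ∈ S' ∧ ¬ SplitsCompletely F M v}.ncard = T0.card := by
    have : {v | v ∈ S' ∧ ¬ SplitsCompletely F M v} = ↑T0 := by
      ext v
      simp only [Set.mem_ofPred_eq, hS', Set.mem_union, Finset.mem_coe, hT0, Finset.mem_filter]
      constructor
      · rintro ⟨hv | hv, hns⟩
        · exact absurd (hsplit v hv) hns
        · exact ⟨hv, hns⟩
      · rintro ⟨hv, hns⟩
        exact ⟨Or.inr hv, hns⟩
    rw [this, Set.ncard_coe_finset]
  rw [ht] at hH
  -- the chain of local norm conditions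
  set E := sUnits F S' with hE
  set NE := (sUnits M (primesAboveSet F M S')).map (normUnits F M) with hNE
  set W := T0.inf fun v => localNormSubgroup F M v p with hW
  have hNW : NE ≤ W := by
    rintro y ⟨z, -, rfl⟩
    exact mem_finset_inf_subgroup.mpr fun v _ => normUnits_mem_localNormSubgroup v p z
  have hdvd : W.relIndex E ∣ NE.relIndex E := Subgroup.relIndex_dvd_of_le_left E hNW
  have hWne : W.relIndex E ≠ 0 := fun h => h0ne (by
    rw [h] at hdvd; exact zero_dvd_iff.mp hdvd)
  have hpow : p ^ T0.card ∣ W.relIndex E := by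
    refine pow_card_dvd_relIndex_inf hp hdeg E T0 hWne ?_
    intro v hv
    obtain ⟨hvT, hvns⟩ := Finset.mem_filter.mp hv
    obtain ⟨y, hyE, hyn, hyr⟩ := hN p F M ζ S T v hp hζ hdeg hSp hgen hdisj hsurj hvT hvns
    exact ⟨y, hyE, hyn, fun v' hv' hne =>
      (hyr v' (Finset.mem_filter.mp hv').1 hne).isLocalNormAt⟩
  obtain ⟨k, hk⟩ := hpow.trans hdvd
  rw [hk] at hH
  have hkp : k * p = 1 := by
    have hpos : 0 < p ^ T0.card := pow_pos hp.pos _
    apply Nat.eq_of_mul_eq_mul_left hpos
    rw [← mul_assoc, hH, mul_one]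
  exact hp.one_lt.ne' (Nat.eq_one_of_mul_eq_one_left hkp)

end Fermat.Agent.S14SI
end MergeWrap_S14_SI_Tame
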