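import Fermat.Agent.MU.S14.FirstIneq.FirstIneqProof
import Fermat.Agent.MU.S14.SI.TameH1
import Fermat.Agent.MU.S17.W.Final

section MergeWrap_Lib_Herbrand_MulRel -- from Lib/Herbrand/MulRel.lean

/-!
# Herbrand quotient for a cyclic group of prime order: relative multiplicative form

`G` a commutative group, `s : G →* G`, `H ≤ G` a finitely generated subgroup with `s H ≤ H` and
`s^[p] = id` on `H`.  All indices are relative indices of subgroups of `G`:

  `[H ∩ ker twist : norm H] * p ^ b = p ^ a * [H ∩ ker norm : twist H]`,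

`a = rank (H ∩ ker twist)`, `a + (p - 1) * b = rank H`, both indices finite.
-/

set_option autoImplicit false

open Module Finset

namespace Fermat.Agent.Herbrand

variable {G : Type*} [CommGroup G]

/-- The restriction of `s` to a stable subgroup. -/
def restrictHom (s : G →* G) (H : Subgroup G) (hH : ∀ x ∈ H, s x ∈ H) : H →* H :=
  (s.comp H.subtype).codRestrict H (fun x => hH x x.2)

@[simp] theorem coe_restrictHom (s : G →* G) (H : Subgroup G) (hH : ∀ x ∈ H, s x ∈ H) (x : H) :
    (restrictHom s H hH x : G) = s x := rfl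

theorem coe_restrictHom_iterate (s : G →* G) (H : Subgroup G) (hH : ∀ x ∈ H, s x ∈ H) (i : ℕ)
    (x : H) : (((restrictHom s H hH)^[i] x : H) : G) = s^[i] x := by
  induction i generalizing x with
  | zero => rfl
  | succ n ih => rw [Function.iterate_succ_apply, Function.iterate_succ_apply, ih]; rfl

theorem coe_twistHom_restrictHom (s : G →* G) (H : Subgroup G) (hH : ∀ x ∈ H, s x ∈ H) (x : H) :
    ((twistHom (restrictHom s H hH) x : H) : G) = twistHom s x := rfl

theorem coe_normHom_restrictHom (p : ℕ) (s : G →* G) (H : Subgroup G) (hH : ∀ x ∈ H, s x ∈ H)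
    (x : H) : ((Fermat.Agent.Herbrand.normHom p (restrictHom s H hH) x : H) : G) =
      Fermat.Agent.Herbrand.normHom p s x := by
  rw [Fermat.Agent.Herbrand.normHom_apply, Fermat.Agent.Herbrand.normHom_apply,
    Subgroup.val_finsetProd]
  exact Finset.prod_congr rfl fun i _ => coe_restrictHom_iterate s H hH i x

theorem map_subtype_ker_of_coe (H : Subgroup G) (f : H →* H) (g : G →* G)
    (hfg : ∀ x : H, ((f x : H) : G) = g x) :
    f.ker.map H.subtype = H ⊓ g.ker := by
  ext y
  simp only [Subgroup.mem_map, MonoidHom.mem_ker, Subgroup.mem_inf]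
  constructor
  · rintro ⟨x, hx, rfl⟩
    refine ⟨x.2, ?_⟩
    have := congrArg Subtype.val hx
    rw [hfg] at this
    exact this
  · rintro ⟨hy, hgy⟩
    refine ⟨⟨y, hy⟩, ?_, rfl⟩
    exact Subtype.ext (by rw [hfg]; exact hgy)

theorem map_subtype_range_of_coe (H : Subgroup G) (f : H →* H) (g : G →* G)
    (hfg : ∀ x : H, ((f x : H) : G) = g x) :
    f.range.map H.subtype = H.map g := by
  ext y
  simp only [Subgroup.mem_map, MonoidHom.mem_range]
  constructor
  · rintro ⟨_, ⟨x, rfl⟩, rfl⟩
    exact ⟨x, x.2, (hfg x).symm⟩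
  · rintro ⟨x, hx, rfl⟩
    exact ⟨f ⟨x, hx⟩, ⟨⟨x, hx⟩, rfl⟩, hfg ⟨x, hx⟩⟩

/-- **Herbrand quotient for a cyclic group of prime order**, relative multiplicative form. -/
theorem herbrand_prime_cyclic_mul_rel {p : ℕ} [Fact p.Prime] (s : G →* G) (H : Subgroup G)
    [Module.Finite ℤ (Additive H)] (hH : ∀ x ∈ H, s x ∈ H) (hs : ∀ x ∈ H, s^[p] x = x) :
    ∃ b : ℕ, finrank ℤ (Additive (H ⊓ (twistHom s).ker : Subgroup G)) + (p - 1) * b =
        finrank ℤ (Additive H) ∧
      (H.map (Fermat.Agent.Herbrand.normHom p s)).relIndex (H ⊓ (twistHom s).ker) * p ^ b =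
        p ^ finrank ℤ (Additive (H ⊓ (twistHom s).ker : Subgroup G)) *
          (H.map (twistHom s)).relIndex (H ⊓ (Fermat.Agent.Herbrand.normHom p s).ker) ∧
      (H.map (Fermat.Agent.Herbrand.normHom p s)).relIndex (H ⊓ (twistHom s).ker) ≠ 0 ∧
      (H.map (twistHom s)).relIndex (H ⊓ (Fermat.Agent.Herbrand.normHom p s).ker) ≠ 0 := by
  have hs' : ∀ x : H, (restrictHom s H hH)^[p] x = x := fun x =>
    Subtype.ext (by rw [coe_restrictHom_iterate]; exact hs x x.2)
  obtain ⟨b, hb, hkey, h0, h1⟩ := herbrand_prime_cyclic_mul (p := p) (restrictHom s H hH) hs'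
  have hinj : Function.Injective H.subtype := Subtype.val_injective
  have k1 := map_subtype_ker_of_coe H (twistHom (restrictHom s H hH)) (twistHom s)
    (coe_twistHom_restrictHom s H hH)
  have k2 := map_subtype_ker_of_coe H (Fermat.Agent.Herbrand.normHom p (restrictHom s H hH))
    (Fermat.Agent.Herbrand.normHom p s) (coe_normHom_restrictHom p s H hH)
  have r1 := map_subtype_range_of_coe H (twistHom (restrictHom s H hH)) (twistHom s)
    (coe_twistHom_restrictHom s H hH)
  have r2 := map_subtype_range_of_coe H (Fermat.Agent.Herbrand.normHom p (restrictHom s H hH))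
    (Fermat.Agent.Herbrand.normHom p s) (coe_normHom_restrictHom p s H hH)
  have e0 : (Fermat.Agent.Herbrand.normHom p (restrictHom s H hH)).range.relIndex
      (twistHom (restrictHom s H hH)).ker =
      (H.map (Fermat.Agent.Herbrand.normHom p s)).relIndex (H ⊓ (twistHom s).ker) := by
    rw [← r2, ← k1, Subgroup.relIndex_map_map_of_injective _ _ hinj]
  have e1 : (twistHom (restrictHom s H hH)).range.relIndex
      (Fermat.Agent.Herbrand.normHom p (restrictHom s H hH)).ker =
      (H.map (twistHom s)).relIndex (H ⊓ (Fermat.Agent.Herbrand.normHom p s).ker) := by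
    rw [← r1, ← k2, Subgroup.relIndex_map_map_of_injective _ _ hinj]
  have er : finrank ℤ (Additive (twistHom (restrictHom s H hH)).ker) =
      finrank ℤ (Additive (H ⊓ (twistHom s).ker : Subgroup G)) := by
    have m1 : (twistHom (restrictHom s H hH)).ker ≃*
        ((twistHom (restrictHom s H hH)).ker.map H.subtype) :=
      Subgroup.equivMapOfInjective _ _ hinj
    have m2 : ((twistHom (restrictHom s H hH)).ker.map H.subtype) ≃*
        (H ⊓ (twistHom s).ker : Subgroup G) := MulEquiv.subgroupCongr k1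
    exact (MulEquiv.toAdditive (m1.trans m2)).toIntLinearEquiv.finrank_eq
  rw [e0, e1, er] at hkey
  rw [e0] at h0
  rw [e1] at h1
  rw [er] at hb
  exact ⟨b, hb, hkey, h0, h1⟩

end Fermat.Agent.Herbrand
end MergeWrap_Lib_Herbrand_MulRel

section MergeWrap_S14_SI_TameHerbrand -- from S14/SI/TameHerbrand.lean

/-!
# S14 / H2 Route I, (Ta): the Herbrand quotient of the `S'`-units (helper86)

`M/F` Galois of odd prime degree `p`, `σ ≠ 1`, `S'` a finite set of primes of `F`,
`E = sUnits F S'`, `E' = sUnits M (primesAboveSet F M S')`, `t` the number of primes of `S'` which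
do not split completely.  Then `[E : N E']` and `[E' ∩ ker N : (σ - 1) E']` are finite and
`[E : N E'] * p = p ^ t * [E' ∩ ker N : (σ - 1) E']`.

This is `Lib/Herbrand` (relative multiplicative form) applied to `E' ≤ Mˣ`, together with the
`S`-unit theorem (`SUnitRankZ`) for `F` and `M` and the count of the primes of `M` above `S'`.
It is also the `S`-unit half of the first inequality of global class field theory.
-/

set_option autoImplicit false
set_option linter.unusedSectionVars false

open NumberField IsDedekindDomain Module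

namespace Fermat.Agent.S14TH

open Fermat.Agent.S14SI Fermat.Agent.Herbrand

variable {F M : Type} [Field F] [NumberField F] [Field M] [NumberField M] [Algebra F M]

/-- Extension of valuations: `w ∣ v` implies `w (x) = 1 ↔ v (x) = 1` for `x ∈ F`. -/
theorem valuation_algebraMap_eq_one_iff (w : HeightOneSpectrum (𝓞 M))
    (v : HeightOneSpectrum (𝓞 F))
    (h : w.asIdeal.comap (algebraMap (𝓞 F) (𝓞 M)) = v.asIdeal) (x : F) :
    w.valuation M (algebraMap F M x) = 1 ↔ v.valuation F x = 1 := by
  have : w.asIdeal.LiesOver v.asIdeal := ⟨h.symm⟩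
  rw [← HeightOneSpectrum.valuation_liesOver M v w x]
  have he : v.asIdeal.ramificationIdx' w.asIdeal ≠ 0 :=
    Ideal.IsDedekindDomain.ramificationIdx'_ne_zero_of_liesOver w.asIdeal v.ne_bot
  rw [pow_eq_one_iff]
  simp [he]



/-- The prime `σ⁻¹ w`. -/
noncomputable def comapAut (σ : M ≃ₐ[F] M) (w : HeightOneSpectrum (𝓞 M)) :
    HeightOneSpectrum (𝓞 M) where
  asIdeal := w.asIdeal.comap (galRestrict (𝓞 F) F M (𝓞 M) σ)
  isPrime := Ideal.comap_isPrime _ _
  ne_bot := by
    intro h
    obtain ⟨x, hx, hx0⟩ := Submodule.exists_mem_ne_zero_of_ne_bot w.ne_bot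
    have hy : (galRestrict (𝓞 F) F M (𝓞 M) σ).symm x ∈
        w.asIdeal.comap (galRestrict (𝓞 F) F M (𝓞 M) σ) := by
      rw [Ideal.mem_comap, AlgEquiv.apply_symm_apply]
      exact hx
    rw [h, Ideal.mem_bot] at hy
    apply hx0
    have := congrArg (galRestrict (𝓞 F) F M (𝓞 M) σ) hy
    rwa [AlgEquiv.apply_symm_apply, map_zero] at this

theorem mem_comapAut (σ : M ≃ₐ[F] M) (w : HeightOneSpectrum (𝓞 M)) (x : 𝓞 M) :
    x ∈ (comapAut σ w).asIdeal ↔ galRestrict (𝓞 F) F M (𝓞 M) σ x ∈ w.asIdeal := Iff.rfl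

theorem comap_comapAut (σ : M ≃ₐ[F] M) (w : HeightOneSpectrum (𝓞 M)) :
    (comapAut σ w).asIdeal.comap (algebraMap (𝓞 F) (𝓞 M)) =
      w.asIdeal.comap (algebraMap (𝓞 F) (𝓞 M)) := by
  ext a
  rw [Ideal.mem_comap, Ideal.mem_comap, mem_comapAut, AlgEquiv.commutes]

theorem comapAut_notMem_primesAboveSet (σ : M ≃ₐ[F] M) (S : Set (HeightOneSpectrum (𝓞 F)))
    {w : HeightOneSpectrum (𝓞 M)} (hw : w ∉ primesAboveSet F M S) :
    comapAut σ w ∉ primesAboveSet F M S := by
  rintro ⟨v, hv, h⟩
  exact hw ⟨v, hv, by rw [← comap_comapAut σ w]; exact h⟩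

theorem valuation_apply_le_one (σ : M ≃ₐ[F] M) (w : HeightOneSpectrum (𝓞 M)) (y : M)
    (hy : (comapAut σ w).valuation M y ≤ 1) : w.valuation M (σ y) ≤ 1 := by
  obtain ⟨n, d, h⟩ := (comapAut σ w).exists_primeCompl_mul_eq_of_integer y hy
  have h1 : σ y * algebraMap (𝓞 M) M (galRestrict (𝓞 F) F M (𝓞 M) σ d) =
      algebraMap (𝓞 M) M (galRestrict (𝓞 F) F M (𝓞 M) σ n) := by
    rw [algebraMap_galRestrict_apply, algebraMap_galRestrict_apply, ← map_mul, h]
  have hd : galRestrict (𝓞 F) F M (𝓞 M) σ d ∉ w.asIdeal := d.2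
  have h2 : w.valuation M (algebraMap (𝓞 M) M (galRestrict (𝓞 F) F M (𝓞 M) σ d)) = 1 :=
    (HeightOneSpectrum.valuation_eq_one_iff_notMem w).mpr hd
  have h3 := congrArg (w.valuation M) h1
  rw [map_mul, h2, mul_one] at h3
  rw [h3]
  exact w.valuation_le_one _

theorem valuation_apply_eq_one (σ : M ≃ₐ[F] M) (w : HeightOneSpectrum (𝓞 M)) (z : M)
    (hz : (comapAut σ w).valuation M z = 1) : w.valuation M (σ z) = 1 := by
  have hz0 : z ≠ 0 := by
    rintro rfl
    simp at hz
  have h1 := valuation_apply_le_one σ w z hz.le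
  have h2 : (comapAut σ w).valuation M z⁻¹ ≤ 1 := by
    rw [map_inv₀, hz, inv_one]
  have h3 := valuation_apply_le_one σ w z⁻¹ h2
  rw [map_inv₀, map_inv₀] at h3
  have hne : w.valuation M (σ z) ≠ 0 := by
    rw [Valuation.ne_zero_iff]
    exact (map_ne_zero σ).mpr hz0
  have h4 : 1 ≤ w.valuation M (σ z) := by
    have := (inv_le_one₀ (zero_lt_iff.mpr hne)).mp h3
    exact this
  exact le_antisymm h1 h4

/-- `σ` maps the `S'`-units of `M` to themselves. -/
theorem map_mem_sUnits (σ : M ≃ₐ[F] M) (S : Set (HeightOneSpectrum (𝓞 F))) (z : Mˣ)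
    (hz : z ∈ sUnits M (primesAboveSet F M S)) :
    Units.map (σ : M →* M) z ∈ sUnits M (primesAboveSet F M S) := by
  rw [mem_sUnits] at hz ⊢
  intro w hw
  exact valuation_apply_eq_one σ w z (hz _ (comapAut_notMem_primesAboveSet σ S hw))


/-- The action of `σ` on `Mˣ`. -/
noncomputable def actU (σ : M ≃ₐ[F] M) : Mˣ →* Mˣ := Units.map (σ : M →* M)

/-- The inclusion `Fˣ → Mˣ`. -/
noncomputable def inclU (F M : Type) [Field F] [Field M] [Algebra F M] : Fˣ →* Mˣ :=
  Units.map (algebraMap F M : F →* M)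

@[simp] theorem coe_actU (σ : M ≃ₐ[F] M) (z : Mˣ) : ((actU σ z : Mˣ) : M) = σ z := rfl

@[simp] theorem coe_inclU (x : Fˣ) : ((inclU F M x : Mˣ) : M) = algebraMap F M x := rfl

theorem inclU_injective : Function.Injective (inclU F M) :=
  Units.map_injective (FaithfulSMul.algebraMap_injective F M)

theorem twistHom_actU (σ : M ≃ₐ[F] M) : twistHom (actU σ) = twistUnits σ := rfl

theorem coe_actU_iterate (σ : M ≃ₐ[F] M) (i : ℕ) (z : Mˣ) :
    (((actU σ)^[i] z : Mˣ) : M) = (σ ^ i) z := by
  induction i generalizing z with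
  | zero => simp
  | succ n ih =>
    rw [Function.iterate_succ_apply, ih, pow_succ]
    rfl

theorem actU_inclU (σ : M ≃ₐ[F] M) (x : Fˣ) : actU σ (inclU F M x) = inclU F M x := by
  apply Units.ext
  simp

section prime

variable [IsGalois F M] {p : ℕ} (hp : p.Prime) (hfin : Module.finrank F M = p)
  (σ : M ≃ₐ[F] M) (hσ : σ ≠ 1)

include hp hfin in
theorem actU_iterate_prime (z : Mˣ) : (actU σ)^[p] z = z := by
  apply Units.ext
  rw [coe_actU_iterate, Fermat.Agent.S14FI.gal_pow_prime_eq_one hp hfin σ]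
  rfl

include hp hfin hσ in
theorem mem_range_inclU_of_fixed (z : Mˣ) (hz : actU σ z = z) : z ∈ (inclU F M).range := by
  have hσz : σ (z : M) = (z : M) := by
    rw [← coe_actU, hz]
  have hall := Fermat.Agent.S14FI.gal_fixed_of_fixed hp hfin σ hσ _ hσz
  obtain ⟨x, hx⟩ := (IsGalois.mem_range_algebraMap_iff_fixed (F := F) (E := M) _).mpr hall
  have hx0 : x ≠ 0 := by
    rintro rfl
    rw [map_zero] at hx
    exact z.ne_zero hx.symm
  exact ⟨Units.mk0 x hx0, Units.ext hx⟩

include hp hfin hσ in
theorem ker_twistUnits_eq : (twistUnits σ).ker = (inclU F M).range := by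
  ext z
  rw [← twistHom_actU, mem_ker_twistHom]
  constructor
  · exact mem_range_inclU_of_fixed hp hfin σ hσ z
  · rintro ⟨x, rfl⟩
    exact actU_inclU σ x

include hp hfin hσ in
theorem inclU_normUnits (z : Mˣ) :
    inclU F M (normUnits F M z) = Fermat.Agent.Herbrand.normHom p (actU σ) z := by
  apply Units.ext
  rw [Fermat.Agent.Herbrand.normHom_apply, Units.coe_prod, coe_inclU]
  have h1 : ((normUnits F M z : Fˣ) : F) = Algebra.norm F (z : M) := rfl
  rw [h1, Algebra.norm_eq_prod_automorphisms F (z : M),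
    Fermat.Agent.S14FI.gal_prod_eq_prod_range hp hfin σ hσ (fun τ => τ (z : M))]
  exact Finset.prod_congr rfl fun i _ => (coe_actU_iterate σ i z).symm

include hp hfin hσ in
theorem normHom_actU_eq : Fermat.Agent.Herbrand.normHom p (actU σ) =
    (inclU F M).comp (normUnits F M) := by
  ext1 z
  rw [MonoidHom.comp_apply, inclU_normUnits hp hfin σ hσ]

end prime


/-- The set of primes of `M` above `v`. -/
def fiber (F M : Type) [Field F] [NumberField F] [Field M] [NumberField M] [Algebra F M]
    (v : HeightOneSpectrum (𝓞 F)) : Set (HeightOneSpectrum (𝓞 M)) :=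
  {w | w.asIdeal.comap (algebraMap (𝓞 F) (𝓞 M)) = v.asIdeal}

theorem asIdeal_image_fiber (v : HeightOneSpectrum (𝓞 F)) :
    HeightOneSpectrum.asIdeal '' (fiber F M v) = v.asIdeal.primesOver (𝓞 M) := by
  ext Q
  constructor
  · rintro ⟨w, hw, rfl⟩
    exact ⟨w.isPrime, ⟨hw.symm⟩⟩
  · rintro ⟨hQ, hQv⟩
    have hQ0 : Q ≠ ⊥ := Ideal.ne_bot_of_liesOver_of_ne_bot v.ne_bot Q
    exact ⟨⟨Q, hQ, hQ0⟩, hQv.over.symm, rfl⟩

theorem asIdeal_injective :
    Function.Injective (HeightOneSpectrum.asIdeal : HeightOneSpectrum (𝓞 M) → Ideal (𝓞 M)) :=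
  fun _ _ h => HeightOneSpectrum.ext h

theorem ncard_fiber (v : HeightOneSpectrum (𝓞 F)) :
    (fiber F M v).ncard = (v.asIdeal.primesOver (𝓞 M)).ncard := by
  rw [← asIdeal_image_fiber, Set.ncard_image_of_injective _ asIdeal_injective]

theorem finite_fiber (v : HeightOneSpectrum (𝓞 F)) : (fiber F M v).Finite := by
  have h : (v.asIdeal.primesOver (𝓞 M)).Finite := IsDedekindDomain.primesOver_finite v.asIdeal (𝓞 M)
  rw [← asIdeal_image_fiber] at h
  exact Set.Finite.of_finite_image h asIdeal_injective.injOn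

theorem primesAboveSet_insert (v : HeightOneSpectrum (𝓞 F)) (S : Set (HeightOneSpectrum (𝓞 F))) :
    primesAboveSet F M (insert v S) = fiber F M v ∪ primesAboveSet F M S := by
  ext w
  simp only [primesAboveSet, fiber, Set.mem_ofPred_eq, Set.mem_insert_iff, Set.mem_union]
  constructor
  · rintro ⟨u, (rfl | hu), h⟩
    · exact Or.inl h
    · exact Or.inr ⟨u, hu, h⟩
  · rintro (h | ⟨u, hu, h⟩)
    · exact ⟨v, Or.inl rfl, h⟩
    · exact ⟨u, Or.inr hu, h⟩

theorem disjoint_fiber_primesAboveSet {v : HeightOneSpectrum (𝓞 F)}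
    {S : Set (HeightOneSpectrum (𝓞 F))} (hv : v ∉ S) :
    Disjoint (fiber F M v) (primesAboveSet F M S) := by
  rw [Set.disjoint_left]
  rintro w hw ⟨u, hu, h⟩
  apply hv
  have : u = v := HeightOneSpectrum.ext (h.symm.trans hw)
  rwa [← this]

section galois

variable [IsGalois F M] {p : ℕ} (hp : p.Prime) (hfin : Module.finrank F M = p)

include hp hfin in
/-- In a Galois extension of prime degree `p` the number of primes above `v` is `1` or `p`. -/
theorem ncard_fiber_eq (v : HeightOneSpectrum (𝓞 F)) :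
    (SplitsCompletely F M v ∧ (fiber F M v).ncard = p) ∨
      (¬ SplitsCompletely F M v ∧ (fiber F M v).ncard = 1) := by
  have hfund := Ideal.ncard_primesOver_mul_ramificationIdxIn_mul_inertiaDegIn v.asIdeal (𝓞 M)
    Gal(M/F)
  rw [IsGaloisGroup.card_eq_finrank Gal(M/F) F M, hfin] at hfund
  rw [ncard_fiber]
  unfold SplitsCompletely
  rw [hfin]
  have hdvd : (v.asIdeal.primesOver (𝓞 M)).ncard ∣ p := ⟨_, hfund.symm⟩
  rcases (Nat.dvd_prime hp).mp hdvd with h1 | h1
  · right
    exact ⟨by rw [h1]; exact hp.one_lt.ne, h1⟩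
  · left
    exact ⟨h1, h1⟩

include hp hfin in
/-- `#{primes above S} + (p - 1) * #{non-split primes in S} = p * #S`. -/
theorem ncard_primesAboveSet (S : Set (HeightOneSpectrum (𝓞 F))) (hS : S.Finite) :
    (primesAboveSet F M S).Finite ∧
      (primesAboveSet F M S).ncard + (p - 1) * {v | v ∈ S ∧ ¬ SplitsCompletely F M v}.ncard =
        p * S.ncard := by
  induction S, hS using Set.Finite.induction_on with
  | empty =>
    have h : primesAboveSet F M (∅ : Set (HeightOneSpectrum (𝓞 F))) = ∅ := by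
      ext w
      simp [primesAboveSet]
    rw [h]
    simp
  | @insert v S hv hS ih =>
    obtain ⟨ihfin, ihcard⟩ := ih
    rw [primesAboveSet_insert]
    refine ⟨(finite_fiber v).union ihfin, ?_⟩
    rw [Set.ncard_union_eq (disjoint_fiber_primesAboveSet hv) (finite_fiber v) ihfin,
      Set.ncard_insert_of_notMem hv hS]
    have hp1 : p = (p - 1) + 1 := (Nat.sub_add_cancel hp.one_lt.le).symm
    rcases ncard_fiber_eq hp hfin v with ⟨hsplit, hc⟩ | ⟨hns, hc⟩
    · have hset : {u | u ∈ insert v S ∧ ¬ SplitsCompletely F M u} =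
          {u | u ∈ S ∧ ¬ SplitsCompletely F M u} := by
        ext u
        simp only [Set.mem_ofPred_eq, Set.mem_insert_iff]
        constructor
        · rintro ⟨(rfl | hu), h⟩
          · exact absurd hsplit h
          · exact ⟨hu, h⟩
        · rintro ⟨hu, h⟩
          exact ⟨Or.inr hu, h⟩
      rw [hset, hc, mul_add, mul_one, ← ihcard]
      ring
    · have hset : {u | u ∈ insert v S ∧ ¬ SplitsCompletely F M u} =
          insert v {u | u ∈ S ∧ ¬ SplitsCompletely F M u} := by
        ext u
        simp only [Set.mem_ofPred_eq, Set.mem_insert_iff]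
        constructor
        · rintro ⟨(rfl | hu), h⟩
          · exact Or.inl rfl
          · exact Or.inr ⟨hu, h⟩
        · rintro (rfl | ⟨hu, h⟩)
          · exact ⟨Or.inl rfl, hns⟩
          · exact ⟨Or.inr hu, h⟩
      have hvn : v ∉ {u | u ∈ S ∧ ¬ SplitsCompletely F M u} := fun h => hv h.1
      have hfin' : {u | u ∈ S ∧ ¬ SplitsCompletely F M u}.Finite :=
        hS.subset (fun u hu => hu.1)
      rw [hset, Set.ncard_insert_of_notMem hvn hfin', hc, mul_add, mul_one, mul_add, mul_one,
        ← ihcard]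
      omega

end galois


/-! ### `S`-units and the inclusion `Fˣ → Mˣ` -/

theorem inclU_mem_sUnits_iff (S : Set (HeightOneSpectrum (𝓞 F))) (x : Fˣ) :
    inclU F M x ∈ sUnits M (primesAboveSet F M S) ↔ x ∈ sUnits F S := by
  rw [mem_sUnits, mem_sUnits]
  constructor
  · intro h v hv
    obtain ⟨w, hw⟩ := exists_primeBelow_eq (F := F) (M := M) v
    have hwS : w ∉ primesAboveSet F M S := by
      rw [mem_primesAboveSet_iff, hw]
      exact hv
    have h1 := h w hwS
    rw [coe_inclU] at h1
    exact (valuation_algebraMap_eq_one_iff w v (by rw [← hw]; rfl) (x : F)).mp h1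
  · intro h w hw
    rw [mem_primesAboveSet_iff] at hw
    rw [coe_inclU]
    exact (valuation_algebraMap_eq_one_iff w (primeBelow (F := F) w) rfl (x : F)).mpr (h _ hw)

section main

variable [IsGalois F M] {p : ℕ} (hp : p.Prime) (hfin : Module.finrank F M = p)
  (σ : M ≃ₐ[F] M) (hσ : σ ≠ 1)

include hp hfin hσ in
theorem sUnits_inf_ker_twistUnits (S : Set (HeightOneSpectrum (𝓞 F))) :
    sUnits M (primesAboveSet F M S) ⊓ (twistUnits σ).ker = (sUnits F S).map (inclU F M) := by
  ext z
  rw [Subgroup.mem_inf, ker_twistUnits_eq hp hfin σ hσ, Subgroup.mem_map]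
  constructor
  · rintro ⟨hz, x, rfl⟩
    exact ⟨x, (inclU_mem_sUnits_iff S x).mp hz, rfl⟩
  · rintro ⟨x, hx, rfl⟩
    exact ⟨(inclU_mem_sUnits_iff S x).mpr hx, x, rfl⟩

include hp hfin hσ in
theorem ker_normHom_actU :
    (Fermat.Agent.Herbrand.normHom p (actU σ)).ker = (normUnits F M).ker := by
  rw [normHom_actU_eq hp hfin σ hσ]
  ext z
  simp only [MonoidHom.mem_ker, MonoidHom.comp_apply]
  constructor
  · intro h
    exact inclU_injective (by rw [h, map_one])
  · intro h
    rw [h, map_one]

theorem card_infinitePlace (hp2 : p ≠ 2) (hp : p.Prime) (hfin : Module.finrank F M = p) :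
    Nat.card (InfinitePlace M) = p * Nat.card (InfinitePlace F) := by
  have hodd : Odd (Module.finrank F M) := by
    rw [hfin]
    exact hp.odd_of_ne_two hp2
  have h1 : IsUnramifiedAtInfinitePlaces F M := IsUnramifiedAtInfinitePlaces_of_odd_finrank hodd
  have h2 := IsUnramifiedAtInfinitePlaces.card_infinitePlace F M
  rw [Nat.card_eq_fintype_card, Nat.card_eq_fintype_card, h2, hfin, mul_comm]

/-- **(Ta)** the Herbrand quotient of the `S'`-units. -/
theorem tameHerbrand (hrank : SUnitRankZ) : TameHerbrand := by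
  intro p F M _ _ _ _ _ _ σ S' hp hp2 hfin hσ hS'
  have hpf : Fact p.Prime := ⟨hp⟩
  obtain ⟨hPfin, hPcard⟩ := ncard_primesAboveSet hp hfin S' hS'
  obtain ⟨hfgM, hrkM⟩ := hrank M (primesAboveSet F M S') hPfin
  obtain ⟨hfgF, hrkF⟩ := hrank F S' hS'
  have hH : ∀ z ∈ sUnits M (primesAboveSet F M S'), actU σ z ∈ sUnits M (primesAboveSet F M S') :=
    fun z hz => map_mem_sUnits σ S' z hz
  have hs : ∀ z ∈ sUnits M (primesAboveSet F M S'), (actU σ)^[p] z = z :=
    fun z _ => actU_iterate_prime hp hfin σ z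
  obtain ⟨b, hb, hkey, hn0, hn1⟩ :=
    herbrand_prime_cyclic_mul_rel (p := p) (actU σ) (sUnits M (primesAboveSet F M S')) hH hs
  -- rewrite the four subgroups
  rw [twistHom_actU] at hb hkey hn0 hn1
  rw [sUnits_inf_ker_twistUnits hp hfin σ hσ S'] at hb hkey hn0
  rw [ker_normHom_actU hp hfin σ hσ] at hkey hn1
  have hmap : (sUnits M (primesAboveSet F M S')).map (Fermat.Agent.Herbrand.normHom p (actU σ)) =
      ((sUnits M (primesAboveSet F M S')).map (normUnits F M)).map (inclU F M) := by
    rw [normHom_actU_eq hp hfin σ hσ, Subgroup.map_map]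
  rw [hmap, Subgroup.relIndex_map_map_of_injective _ _ inclU_injective] at hkey hn0
  -- ranks
  have hrE : finrank ℤ (Additive ((sUnits F S').map (inclU F M))) =
      finrank ℤ (Additive (sUnits F S')) := by
    have e : (sUnits F S') ≃* ((sUnits F S').map (inclU F M)) :=
      Subgroup.equivMapOfInjective _ _ inclU_injective
    exact (MulEquiv.toAdditive e).toIntLinearEquiv.finrank_eq.symm
  rw [hrE] at hb hkey
  have hinf := card_infinitePlace (F := F) (M := M) hp2 hp hfin
  -- arithmetic: `b + t = a + 1`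
  set a := finrank ℤ (Additive (sUnits F S')) with ha
  set R := finrank ℤ (Additive (sUnits M (primesAboveSet F M S'))) with hR
  set t := {v | v ∈ S' ∧ ¬ SplitsCompletely F M v}.ncard with ht
  set r := Nat.card (InfinitePlace F) with hr
  set n := S'.ncard with hn
  set P := (primesAboveSet F M S').ncard with hP
  rw [hinf] at hrkM
  have hbt : b + t = a + 1 := by
    obtain ⟨q, rfl⟩ : ∃ q, p = q + 1 := ⟨p - 1, (Nat.sub_add_cancel hp.one_lt.le).symm⟩
    have hq : 0 < q := by
      have := hp.one_lt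
      omega
    simp only [Nat.add_sub_cancel] at hb hPcard
    have e1 : q * (a + 1) = q * (r + n) := by rw [hrkF]
    have e2 : (q + 1) * r = q * r + r := by ring
    have e3 : (q + 1) * n = q * n + n := by ring
    have e4 : q * (a + 1) = q * a + q := by ring
    have e5 : q * (r + n) = q * r + q * n := by ring
    have e6 : q * (b + t) = q * b + q * t := by ring
    have key : q * (b + t) = q * (a + 1) := by
      rw [e6, e4]
      rw [e4, e5] at e1
      rw [e2] at hrkM
      rw [e3] at hPcard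
      omega
    exact Nat.eq_of_mul_eq_mul_left hq key
  refine ⟨hn0, hn1, ?_⟩
  have hpa : 0 < p ^ a := pow_pos hp.pos _
  have e : p ^ a * (((sUnits M (primesAboveSet F M S')).map (normUnits F M)).relIndex
      (sUnits F S') * p) = p ^ a * (p ^ t *
      ((sUnits M (primesAboveSet F M S')).map (twistUnits σ)).relIndex
        (sUnits M (primesAboveSet F M S') ⊓ (normUnits F M).ker)) := by
    calc p ^ a * (((sUnits M (primesAboveSet F M S')).map (normUnits F M)).relIndex
          (sUnits F S') * p)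
        = ((sUnits M (primesAboveSet F M S')).map (normUnits F M)).relIndex (sUnits F S') *
            p ^ (a + 1) := by ring
      _ = (((sUnits M (primesAboveSet F M S')).map (normUnits F M)).relIndex (sUnits F S') *
            p ^ b) * p ^ t := by rw [← hbt]; ring
      _ = _ := by rw [hkey]; ring
  exact Nat.eq_of_mul_eq_mul_left hpa e

end main

end Fermat.Agent.S14TH

namespace Fermat.Agent.S14SI

/-- **(Ta)**, unconditional: the Herbrand quotient of the `S'`-units of a cyclic extension of odd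
prime degree (`SUnitRankZ` is `sUnitRankZ`, helper48). -/
theorem tameHerbrand_uncond : TameHerbrand :=
  Fermat.Agent.S14TH.tameHerbrand sUnitRankZ

end Fermat.Agent.S14SI
end MergeWrap_S14_SI_TameHerbrand
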