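import Fermat.Agent.MU.S17.W.Final

section MergeWrap_S14_SI_KummerSplits -- from S14/SI/KummerSplits.lean

/-!
# S14 / H2 Route I, WP3: splitting of primes in Kummer extensions (helper3)

* `Fermat.Agent.S14SI.kummerSplits : KummerSplits` -- a prime at which `a` is a local `p`-th
  power (finite-level sense) splits completely in `F(a^{1/p})`;
* `Fermat.Agent.S14SI.kummerUnram : KummerUnram` -- primes not dividing `p a` are unramified in
  `F(a^{1/p})`.

Both are deduced from a statement about an arbitrary valuation `w` on a field (`ks_core`,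
`ks_core_unram`): the decomposition (resp. inertia) group of a prime above `v` is trivial.
-/

set_option autoImplicit false
open NumberField IsDedekindDomain
open scoped Pointwise

namespace Fermat.Agent.S14SI

/-! ### Abstract valuation lemma -/

section abstract

variable {M : Type*} [Field M] {Γ : Type*} [LinearOrderedCommGroupWithZero Γ]

lemma ks_val_rootOfUnity (w : Valuation M Γ) {p : ℕ} (hp : p ≠ 0) {ξ : M} (hξ : ξ ^ p = 1) :
    w ξ = 1 := by
  have h : w ξ ^ p = 1 := by rw [← map_pow, hξ, map_one]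
  exact (pow_eq_one_iff.mp h).resolve_right hp

lemma ks_val_geom_sum_le (w : Valuation M Γ) {ξ : M} (hξ : w ξ ≤ 1) (m : ℕ) :
    w (∑ k ∈ Finset.range m, ξ ^ k) ≤ 1 := by
  refine Valuation.map_sum_le w (fun k _ => ?_)
  rw [map_pow]
  exact pow_le_one' hξ k

/-- Core of the Kummer splitting argument: if `A ^ p` is close to `1` and an automorphism
preserving the valuation multiplies `A` by a `p`-th root of unity `ξ`, then `ξ = 1`. -/
lemma ks_core (w : Valuation M Γ) {p : ℕ} (hp : p.Prime) {ζ : M} (hζ : IsPrimitiveRoot ζ p)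
    (A ξ : M) (hA : w (A ^ p - 1) < w (ζ - 1) ^ p) (hξ : ξ ^ p = 1)
    (σ : M →+* M) (hσw : ∀ x, w (σ x) = w x) (hσζ : σ ζ = ζ) (hσA : σ A = ξ * A) :
    ξ = 1 := by
  by_contra hξ1
  have hp0 : p ≠ 0 := hp.ne_zero
  have : NeZero p := ⟨hp0⟩
  have : Fact p.Prime := ⟨hp⟩
  -- some root of unity `η` is close to `A`
  have hprod : A ^ p - 1 = ∏ η ∈ Polynomial.nthRootsFinset p (1 : M), (A - η) := by
    have := hζ.pow_sub_pow_eq_prod_sub_mul A 1 hp.pos
    simpa using this
  have hex : ∃ η ∈ Polynomial.nthRootsFinset p (1 : M), w (A - η) < w (ζ - 1) := by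
    by_contra hcon
    push Not at hcon
    have h1 : w (ζ - 1) ^ p ≤ w (A ^ p - 1) := by
      rw [hprod, map_prod]
      calc w (ζ - 1) ^ p
          = ∏ _η ∈ Polynomial.nthRootsFinset p (1 : M), w (ζ - 1) := by
            rw [Finset.prod_const, hζ.card_nthRootsFinset]
        _ ≤ ∏ η ∈ Polynomial.nthRootsFinset p (1 : M), w (A - η) :=
            Finset.prod_le_prod' hcon
    exact absurd hA (not_lt.mpr h1)
  obtain ⟨η, hη, hlt⟩ := hex
  have hηp : η ^ p = 1 := (Polynomial.mem_nthRootsFinset hp.pos 1).mp hη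
  obtain ⟨i, -, hi⟩ := hζ.eq_pow_of_pow_eq_one hηp
  have hση : σ η = η := by rw [← hi, map_pow, hσζ]
  have hwξ : w ξ = 1 := ks_val_rootOfUnity w hp0 hξ
  have hwη : w η = 1 := ks_val_rootOfUnity w hp0 hηp
  -- apply `σ`
  have h2 : w (ξ * A - η) < w (ζ - 1) := by
    have : σ (A - η) = ξ * A - η := by rw [map_sub, hσA, hση]
    rw [← this, hσw]; exact hlt
  have h3 : w (ξ * (A - η)) < w (ζ - 1) := by
    rw [map_mul, hwξ, one_mul]; exact hlt
  have h4 : w (ξ - 1) < w (ζ - 1) := by
    have e : η * (ξ - 1) = (ξ * A - η) - ξ * (A - η) := by ring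
    have : w (η * (ξ - 1)) < w (ζ - 1) := by
      rw [e]
      exact lt_of_le_of_lt (Valuation.map_sub _ _ _) (max_lt h2 h3)
    rwa [map_mul, hwη, one_mul] at this
  -- but `ζ - 1` is a multiple of `ξ - 1`
  have hξprim : IsPrimitiveRoot ξ p := by
    have := orderOf_eq_prime hξ hξ1
    rw [← this]
    exact IsPrimitiveRoot.orderOf ξ
  obtain ⟨m, -, hm⟩ := hξprim.eq_pow_of_pow_eq_one hζ.pow_eq_one
  have h5 : w (ζ - 1) ≤ w (ξ - 1) := by
    have e : ζ - 1 = (ξ - 1) * ∑ k ∈ Finset.range m, ξ ^ k := by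
      rw [← hm, mul_geom_sum]
    rw [e, map_mul]
    calc w (ξ - 1) * w (∑ k ∈ Finset.range m, ξ ^ k) ≤ w (ξ - 1) * 1 :=
          mul_le_mul' le_rfl (ks_val_geom_sum_le w hwξ.le m)
      _ = w (ξ - 1) := mul_one _
  exact absurd h4 (not_lt.mpr h5)

end abstract

section invariance

variable {F M : Type} [Field F] [Field M] [NumberField M] [Algebra F M]

lemma ks_intValuation_smul_le (w : HeightOneSpectrum (𝓞 M)) (σ : M ≃ₐ[F] M)
    (hσ : σ • w.asIdeal = w.asIdeal) (r : 𝓞 M) :
    w.intValuation (σ • r) ≤ w.intValuation r := by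
  rcases eq_or_ne r 0 with rfl | hr
  · simp
  have hk := w.intValuation_eq_exp_neg_multiplicity hr
  rw [hk, w.intValuation_le_pow_iff_mem]
  have hmem : r ∈ w.asIdeal ^ (multiplicity w.asIdeal (Ideal.span {r})) :=
    (w.intValuation_le_pow_iff_mem r _).mp hk.le
  have h1 : σ • r ∈ σ • (w.asIdeal ^ (multiplicity w.asIdeal (Ideal.span {r}))) :=
    Ideal.smul_mem_pointwise_smul_iff.mpr hmem
  rwa [Ideal.pointwise_smul_def, Ideal.map_pow, ← Ideal.pointwise_smul_def, hσ] at h1

lemma ks_intValuation_smul (w : HeightOneSpectrum (𝓞 M)) (σ : M ≃ₐ[F] M)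
    (hσ : σ • w.asIdeal = w.asIdeal) (r : 𝓞 M) :
    w.intValuation (σ • r) = w.intValuation r := by
  refine le_antisymm (ks_intValuation_smul_le w σ hσ r) ?_
  have hσ' : σ⁻¹ • w.asIdeal = w.asIdeal := by
    rw [inv_smul_eq_iff, hσ]
  have := ks_intValuation_smul_le w σ⁻¹ hσ' (σ • r)
  rwa [inv_smul_smul] at this

lemma ks_valuation_apply (w : HeightOneSpectrum (𝓞 M)) (σ : M ≃ₐ[F] M)
    (hσ : σ • w.asIdeal = w.asIdeal) (x : M) :
    w.valuation M (σ x) = w.valuation M x := by
  obtain ⟨r, s, hs, rfl⟩ := IsFractionRing.div_surjective (A := 𝓞 M) x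
  have e1 : σ (algebraMap (𝓞 M) M r) = algebraMap (𝓞 M) M (σ • r) := rfl
  have e2 : σ (algebraMap (𝓞 M) M s) = algebraMap (𝓞 M) M (σ • s) := rfl
  rw [map_div₀, e1, e2, map_div₀, map_div₀, HeightOneSpectrum.valuation_of_algebraMap,
    HeightOneSpectrum.valuation_of_algebraMap, HeightOneSpectrum.valuation_of_algebraMap,
    HeightOneSpectrum.valuation_of_algebraMap, ks_intValuation_smul w σ hσ,
    ks_intValuation_smul w σ hσ]

end invariance

section kummer

variable {F M : Type} [Field F] [Field M] [Algebra F M]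

lemma ks_eq_one_of_fix [FiniteDimensional F M] {p : ℕ} (hp : p.Prime)
    (hdeg : Module.finrank F M = p)
    (α : M) (hαF : ∀ b : F, algebraMap F M b ≠ α) (σ : M ≃ₐ[F] M) (h : σ α = α) : σ = 1 := by
  have hsimple : IsSimpleOrder (IntermediateField F M) :=
    IntermediateField.isSimpleOrder_of_finrank_prime F M (hdeg ▸ hp)
  have htop : IntermediateField.adjoin F {α} = ⊤ := by
    rcases eq_bot_or_eq_top (IntermediateField.adjoin F {α}) with hb | ht
    · exfalso
      rw [IntermediateField.adjoin_simple_eq_bot_iff, IntermediateField.mem_bot] at hb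
      obtain ⟨b, hb⟩ := hb
      exact hαF b hb
    · exact ht
  ext x
  have hx : x ∈ IntermediateField.adjoin F {α} := by rw [htop]; trivial
  have := (IntermediateField.forall_mem_adjoin_smul_eq_self_iff F (S := {α}) σ).mpr
    (by intro y hy; rw [Set.mem_singleton_iff] at hy; rw [hy]; exact h) x hx
  simpa using this

lemma ks_exists_root_mul {p : ℕ} (a : F) (α : M) (hα : α ^ p = algebraMap F M a)
    (hα0 : α ≠ 0) (σ : M ≃ₐ[F] M) : ∃ ξ : M, ξ ^ p = 1 ∧ σ α = ξ * α := by
  refine ⟨σ α / α, ?_, by field_simp⟩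
  rw [div_pow, ← map_pow, hα, AlgEquiv.commutes, div_self]
  rw [← hα]; exact pow_ne_zero _ hα0

end kummer

section wrapper

variable {F M : Type} [Field F] [NumberField F] [Field M] [NumberField M] [Algebra F M]

/-- Comparison of strict inequalities between valuations below and above. -/
lemma ks_valuation_lt_of_lt (v : HeightOneSpectrum (𝓞 F)) (w : HeightOneSpectrum (𝓞 M))
    [w.asIdeal.LiesOver v.asIdeal] {x z : F} {n : ℕ}
    (h : v.valuation F x < v.valuation F z ^ n) :
    w.valuation M (algebraMap F M x) < w.valuation M (algebraMap F M z) ^ n := by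
  rw [← HeightOneSpectrum.valuation_liesOver M v w, ← HeightOneSpectrum.valuation_liesOver M v w,
    ← pow_mul, mul_comm, pow_mul]
  exact pow_lt_pow_left₀ h zero_le
    (Ideal.IsDedekindDomain.ramificationIdx'_ne_zero_of_liesOver w.asIdeal v.ne_bot)

end wrapper

theorem kummerSplits : KummerSplits := by
  intro p F M _ _ _ _ _ _ ζ a α v hp hζ hdeg hα hαF hloc
  obtain ⟨y, hy0, hy⟩ := hloc
  -- pick a prime `P` of `M` above `v`
  obtain ⟨⟨P, hPprime, hPover⟩⟩ := (inferInstance : Nonempty (v.asIdeal.primesOver (𝓞 M)))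
  have hPne : P ≠ ⊥ := Ideal.ne_bot_of_liesOver_of_ne_bot v.ne_bot P
  let w : HeightOneSpectrum (𝓞 M) := ⟨P, hPprime, hPne⟩
  have hwover : w.asIdeal.LiesOver v.asIdeal := hPover
  have hα0 : α ≠ 0 := by
    intro h0
    exact hαF 0 (by rw [map_zero, h0])
  have hζM : IsPrimitiveRoot (algebraMap F M ζ) p :=
    hζ.map_of_injective (algebraMap F M).injective
  -- the stabilizer of `P` is trivial
  have hstab : MulAction.stabilizer (M ≃ₐ[F] M) P = ⊥ := by
    rw [eq_bot_iff]
    intro σ hσ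
    rw [MulAction.mem_stabilizer_iff] at hσ
    rw [Subgroup.mem_bot]
    obtain ⟨ξ, hξ, hσα⟩ := ks_exists_root_mul a α hα hα0 σ
    have hξ1 : ξ = 1 := by
      refine ks_core (w.valuation M) hp hζM (α * algebraMap F M y) ξ ?_ hξ
        (σ : M →+* M) (ks_valuation_apply w σ hσ) ?_ ?_
      · have e1 : (α * algebraMap F M y) ^ p - 1 = algebraMap F M (a * y ^ p - 1) := by
          rw [mul_pow, hα, map_sub, map_mul, map_pow, map_one]
        have e2 : algebraMap F M ζ - 1 = algebraMap F M (ζ - 1) := by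
          rw [map_sub, map_one]
        rw [e1, e2]
        exact ks_valuation_lt_of_lt v w hy
      · simp
      · simp [hσα, mul_assoc]
    apply ks_eq_one_of_fix hp hdeg α hαF σ
    rw [hσα, hξ1, one_mul]
  -- count
  unfold SplitsCompletely
  have h1 := Ideal.ncard_primesOver_mul_ramificationIdxIn_mul_inertiaDegIn v.asIdeal (𝓞 M)
    (M ≃ₐ[F] M)
  have h2 := Ideal.card_stabilizer_eq (G := M ≃ₐ[F] M) v.asIdeal P
  rw [hstab] at h2
  rw [← h2] at h1
  simp only [Subgroup.card_bot, mul_one] at h1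
  rw [h1, IsGaloisGroup.card_eq_finrank (M ≃ₐ[F] M) F M]

section abstract2

variable {M : Type*} [Field M] {Γ : Type*} [LinearOrderedCommGroupWithZero Γ]

lemma ks_val_natCast_le (w : Valuation M Γ) {p : ℕ} (hp : p ≠ 0) {ξ : M} (hξ : ξ ^ p = 1)
    (hξ1 : ξ ≠ 1) : w (p : M) ≤ w (ξ - 1) := by
  have hwξ : w ξ = 1 := ks_val_rootOfUnity w hp hξ
  have key : (p : M) = ∑ i ∈ Finset.range p, (1 - ξ ^ i) := by
    have hgs : ∑ i ∈ Finset.range p, ξ ^ i = 0 := by
      have := geom_sum_mul ξ p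
      rw [hξ, sub_self] at this
      exact (mul_eq_zero.1 this).resolve_right fun h ↦ hξ1 (sub_eq_zero.1 h)
    rw [Finset.sum_sub_distrib, hgs, sub_zero, Finset.sum_const, Finset.card_range,
      nsmul_eq_mul, mul_one]
  rw [key]
  refine Valuation.map_sum_le w (fun i _ => ?_)
  have e : 1 - ξ ^ i = -((ξ - 1) * ∑ k ∈ Finset.range i, ξ ^ k) := by
    rw [mul_geom_sum]; ring
  rw [e, Valuation.map_neg, map_mul]
  calc w (ξ - 1) * w (∑ k ∈ Finset.range i, ξ ^ k) ≤ w (ξ - 1) * 1 :=
        mul_le_mul' le_rfl (ks_val_geom_sum_le w hwξ.le i)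
    _ = w (ξ - 1) := mul_one _

/-- Core of the unramifiedness argument. -/
lemma ks_core_unram (w : Valuation M Γ) {p : ℕ} (hp : p.Prime) (hwp : w (p : M) = 1)
    (A ξ n d : M) (hA : w A = 1) (hd : w d = 1) (hAd : A * d = n) (hξ : ξ ^ p = 1)
    (σ : M →+* M) (hσn : w (σ n - n) < 1) (hσd : w (σ d - d) < 1) (hσA : σ A = ξ * A) :
    ξ = 1 := by
  by_contra hξ1
  have hwξ : w ξ = 1 := ks_val_rootOfUnity w hp.ne_zero hξ
  have e : (ξ - 1) * A * d = (σ n - n) - ξ * A * (σ d - d) := by
    rw [← hAd, map_mul, hσA]; ring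
  have h1 : w ((ξ - 1) * A * d) < 1 := by
    rw [e]
    refine lt_of_le_of_lt (Valuation.map_sub _ _ _) (max_lt hσn ?_)
    rw [map_mul, map_mul, hwξ, hA, one_mul, one_mul]
    exact hσd
  rw [map_mul, map_mul, hA, hd, mul_one, mul_one] at h1
  have h2 := ks_val_natCast_le w hp.ne_zero hξ hξ1
  rw [hwp] at h2
  exact absurd h1 (not_lt.mpr h2)

end abstract2

theorem kummerUnram : KummerUnram := by
  intro p F M _ _ _ _ _ _ ζ a α v P hp hζ hdeg hα hαF hpv hva hPprime hPover
  have hPne : P ≠ ⊥ := Ideal.ne_bot_of_liesOver_of_ne_bot v.ne_bot P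
  let w : HeightOneSpectrum (𝓞 M) := ⟨P, hPprime, hPne⟩
  have hwover : w.asIdeal.LiesOver v.asIdeal := hPover
  have hα0 : α ≠ 0 := by
    intro h0
    exact hαF 0 (by rw [map_zero, h0])
  -- valuations of `p` and `α`
  have hvp : v.valuation F ((p : 𝓞 F) : F) = 1 := by
    refine le_antisymm (v.valuation_le_one _) (not_lt.mp ?_)
    rw [HeightOneSpectrum.valuation_lt_one_iff_mem]
    exact hpv
  have hwp : w.valuation M (p : M) = 1 := by
    have := HeightOneSpectrum.valuation_liesOver M v w ((p : 𝓞 F) : F)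
    rw [hvp, one_pow] at this
    rw [this]
    simp
  have hwα : w.valuation M α = 1 := by
    have h1 : w.valuation M α ^ p = 1 := by
      rw [← map_pow, hα, ← HeightOneSpectrum.valuation_liesOver M v w, hva, one_pow]
    exact (pow_eq_one_iff.mp h1).resolve_right hp.ne_zero
  obtain ⟨n, d, hnd⟩ := HeightOneSpectrum.exists_primeCompl_mul_eq_of_integer w α hwα.le
  have hwd : w.valuation M (algebraMap (𝓞 M) M d) = 1 := by
    refine le_antisymm (w.valuation_le_one _) (not_lt.mp ?_)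
    rw [HeightOneSpectrum.valuation_lt_one_iff_mem]
    exact d.2
  -- the inertia group of `P` is trivial
  have hin : P.inertia (M ≃ₐ[F] M) = ⊥ := by
    rw [eq_bot_iff]
    intro σ hσ
    rw [Subgroup.mem_bot]
    obtain ⟨ξ, hξ, hσα⟩ := ks_exists_root_mul a α hα hα0 σ
    have hmem : ∀ r : 𝓞 M, w.valuation M (σ (algebraMap (𝓞 M) M r) - algebraMap (𝓞 M) M r) < 1 := by
      intro r
      have h1 : σ (algebraMap (𝓞 M) M r) - algebraMap (𝓞 M) M r
          = algebraMap (𝓞 M) M (σ • r - r) := by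
        rw [map_sub]; rfl
      rw [h1, HeightOneSpectrum.valuation_lt_one_iff_mem]
      exact hσ r
    have hξ1 : ξ = 1 :=
      ks_core_unram (w.valuation M) hp hwp α ξ (algebraMap (𝓞 M) M n) (algebraMap (𝓞 M) M d)
        hwα hwd hnd hξ (σ : M →+* M) (hmem n) (hmem d) (by simpa using hσα)
    apply ks_eq_one_of_fix hp hdeg α hαF σ
    rw [hσα, hξ1, one_mul]
  have h1 := Ideal.card_inertia_eq_ramificationIdxIn (G := M ≃ₐ[F] M) v.asIdeal P
  rw [hin, Subgroup.card_bot] at h1
  rw [← Ideal.ramificationIdxIn_eq_ramificationIdx v.asIdeal P (M ≃ₐ[F] M), ← h1]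

end Fermat.Agent.S14SI
end MergeWrap_S14_SI_KummerSplits
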