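import Fermat.Agent.MU.S14.SI.TameHerbrand
import Fermat.Agent.MU.S14.SI.TameH1
import Fermat.Agent.MU.S14.SI.LocalCyclic
import Fermat.Agent.MU.S14.SI.KummerNonSplit

section MergeWrap_S14_SI_LocalNormProper -- from S14/SI/LocalNormProper.lean

/-!
# S14/SI (Td): the local norm group at a non-split prime is proper (helper13)
-/

set_option autoImplicit false

open NumberField IsDedekindDomain

namespace Fermat.Agent.S14SI

open Fermat.Agent.S14TH (fiber ncard_fiber_eq)

section td

/-- A product of elements congruent to `a` is congruent to a power of `a`. -/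
theorem td_prod_sub_pow_lt_one {K : Type*} [Field K] {Γ : Type*}
    [LinearOrderedCommGroupWithZero Γ] (w : Valuation K Γ) {ι : Type*} (s : Finset ι)
    (f : ι → K) {a : K} (ha : w a ≤ 1) (h : ∀ i ∈ s, w (f i - a) < 1) :
    w (∏ i ∈ s, f i - a ^ s.card) < 1 := by
  classical
  induction s using Finset.induction_on with
  | empty => simp
  | insert i s hi ih =>
    have hfi : w (f i - a) < 1 := h i (Finset.mem_insert_self i s)
    have ih' := ih (fun j hj => h j (Finset.mem_insert_of_mem hj))
    have hfi1 : w (f i) ≤ 1 := by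
      have e : f i = (f i - a) + a := by ring
      rw [e]
      exact le_trans (w.map_add _ _) (max_le hfi.le ha)
    rw [Finset.prod_insert hi, Finset.card_insert_of_notMem hi, pow_succ']
    have e : f i * ∏ j ∈ s, f j - a * a ^ s.card =
        f i * (∏ j ∈ s, f j - a ^ s.card) + (f i - a) * a ^ s.card := by ring
    rw [e]
    refine lt_of_le_of_lt (w.map_add _ _) (max_lt ?_ ?_)
    · rw [map_mul]
      exact lt_of_le_of_lt (mul_le_of_le_one_left' hfi1) ih'
    · rw [map_mul, map_pow]
      exact lt_of_le_of_lt (mul_le_of_le_one_right' (pow_le_one' ha _)) hfi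

variable {F M : Type} [Field F] [NumberField F] [Field M] [NumberField M] [Algebra F M]
  [IsGalois F M]

/-- If `v` does not split completely in the Galois extension `M/F` of prime degree, the Galois
group fixes every prime above `v`. -/
theorem td_galPrime_eq {p : ℕ} (hp : p.Prime) (hfin : Module.finrank F M = p)
    {v : HeightOneSpectrum (𝓞 F)} (hns : ¬ SplitsCompletely F M v)
    (w : HeightOneSpectrum (𝓞 M)) (hw : primeBelow (F := F) w = v) (τ : M ≃ₐ[F] M) :
    galPrime τ w = w := by
  have h1 : (fiber F M v).ncard = 1 := by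
    rcases ncard_fiber_eq hp hfin v with h | h
    · exact absurd h.1 hns
    · exact h.2
  obtain ⟨w₀, hw₀⟩ := Set.ncard_eq_one.mp h1
  have hmem : w ∈ fiber F M v := by
    show w.asIdeal.comap (algebraMap (𝓞 F) (𝓞 M)) = v.asIdeal
    rw [← hw]; rfl
  have hmem' : galPrime τ w ∈ fiber F M v := by
    show (galPrime τ w).asIdeal.comap (algebraMap (𝓞 F) (𝓞 M)) = v.asIdeal
    rw [galPrime_comap, ← hw]; rfl
  rw [hw₀, Set.mem_singleton_iff] at hmem hmem'
  rw [hmem', hmem]

/-- The valuation at the unique prime above `v` is Galois invariant. -/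
theorem td_valuation_apply {p : ℕ} (hp : p.Prime) (hfin : Module.finrank F M = p)
    {v : HeightOneSpectrum (𝓞 F)} (hns : ¬ SplitsCompletely F M v)
    (w : HeightOneSpectrum (𝓞 M)) (hw : primeBelow (F := F) w = v) (τ : M ≃ₐ[F] M) (x : M) :
    w.valuation M (τ x) = w.valuation M x := by
  rw [valuation_apply_gal, td_galPrime_eq hp hfin hns w hw]

/-- The valuation of a norm at the unique prime above `v`. -/
theorem td_valuation_norm {p : ℕ} (hp : p.Prime) (hfin : Module.finrank F M = p)
    {v : HeightOneSpectrum (𝓞 F)} (hns : ¬ SplitsCompletely F M v)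
    (w : HeightOneSpectrum (𝓞 M)) (hw : primeBelow (F := F) w = v) (x : M) :
    w.valuation M (algebraMap F M (Algebra.norm F x)) = w.valuation M x ^ p := by
  rw [Algebra.norm_eq_prod_automorphisms, map_prod]
  have : ∀ τ ∈ (Finset.univ : Finset (M ≃ₐ[F] M)), w.valuation M (τ x) = w.valuation M x :=
    fun τ _ => td_valuation_apply hp hfin hns w hw τ x
  rw [Finset.prod_congr rfl this, Finset.prod_const, Finset.card_univ,
    ← Nat.card_eq_fintype_card, IsGalois.card_aut_eq_finrank, hfin]

/-- `e * f = p` at the unique prime above a non-split prime. -/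
theorem td_ram_mul_inertia {p : ℕ} (hp : p.Prime) (hfin : Module.finrank F M = p)
    {v : HeightOneSpectrum (𝓞 F)} (hns : ¬ SplitsCompletely F M v)
    (w : HeightOneSpectrum (𝓞 M)) [hlo : w.asIdeal.LiesOver v.asIdeal] :
    v.asIdeal.ramificationIdx' w.asIdeal * w.asIdeal.inertiaDeg (𝓞 F) = p := by
  have hfund := Ideal.ncard_primesOver_mul_ramificationIdxIn_mul_inertiaDegIn v.asIdeal (𝓞 M)
    Gal(M/F)
  rw [IsGaloisGroup.card_eq_finrank Gal(M/F) F M, hfin] at hfund
  have h1 : (v.asIdeal.primesOver (𝓞 M)).ncard = 1 := by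
    rw [← Fermat.Agent.S14TH.ncard_fiber]
    rcases ncard_fiber_eq hp hfin v with h | h
    · exact absurd h.1 hns
    · exact h.2
  rw [h1, one_mul, Ideal.ramificationIdxIn_eq_ramificationIdx v.asIdeal w.asIdeal Gal(M/F),
    Ideal.inertiaDegIn_eq_inertiaDeg v.asIdeal w.asIdeal Gal(M/F)] at hfund
  have h2 : v.asIdeal.ramificationIdx' w.asIdeal = w.asIdeal.ramificationIdx (𝓞 F) :=
    Ideal.ramificationIdx'_eq_ramificationIdx v.asIdeal w.asIdeal v.ne_bot
  rw [h2]
  exact hfund

/-- The valuation of the norm downstairs: `v (N x) ^ e = w x ^ p`. -/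
theorem td_valuation_norm' {p : ℕ} (hp : p.Prime) (hfin : Module.finrank F M = p)
    {v : HeightOneSpectrum (𝓞 F)} (hns : ¬ SplitsCompletely F M v)
    (w : HeightOneSpectrum (𝓞 M)) [hlo : w.asIdeal.LiesOver v.asIdeal] (x : M) :
    v.valuation F (Algebra.norm F x) ^ v.asIdeal.ramificationIdx' w.asIdeal =
      w.valuation M x ^ p := by
  have hw : primeBelow (F := F) w = v := HeightOneSpectrum.ext hlo.over.symm
  rw [HeightOneSpectrum.valuation_liesOver M v w, td_valuation_norm hp hfin hns w hw]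

omit [IsGalois F M] in
/-- If `y * (N z)⁻¹` is a `p`-th power residue at `v`, then `v (N z) = v y`. -/
theorem td_valuation_eq_of_isPowMod {p : ℕ} {v : HeightOneSpectrum (𝓞 F)} {y n : F}
    (hn : n ≠ 0) (h : IsPowMod F v p (y * n⁻¹)) : v.valuation F n = v.valuation F y := by
  have h1 : v.valuation F (y * n⁻¹) = 1 := h.valuation_eq_one
  rw [map_mul, map_inv₀] at h1
  have hn0 : v.valuation F n ≠ 0 := (Valuation.ne_zero_iff _).mpr hn
  field_simp at h1
  exact h1.symm

omit [IsGalois F M] in
/-- Residue degree one: every integer of `M` is congruent modulo `w` to an integer of `F`. -/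
theorem td_exists_integer_sub_mem (v : HeightOneSpectrum (𝓞 F)) (w : HeightOneSpectrum (𝓞 M))
    [w.asIdeal.LiesOver v.asIdeal] (hf : w.asIdeal.inertiaDeg (𝓞 F) = 1) (b : 𝓞 M) :
    ∃ a : 𝓞 F, algebraMap (𝓞 F) (𝓞 M) a - b ∈ w.asIdeal := by
  have : v.asIdeal.IsMaximal := v.isMaximal
  have : w.asIdeal.IsMaximal := w.isMaximal
  rw [Ideal.inertiaDeg_eq_of_isMaximal v.asIdeal w.asIdeal] at hf
  let _ : Field (𝓞 F ⧸ v.asIdeal) := Ideal.Quotient.field _
  let _ : Field (𝓞 M ⧸ w.asIdeal) := Ideal.Quotient.field _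
  have hbij := (Algebra.finrank_eq_one_iff_bijective_algebraMap
    (F := 𝓞 F ⧸ v.asIdeal) (E := 𝓞 M ⧸ w.asIdeal)).mp hf
  obtain ⟨a', ha'⟩ := hbij.2 (Ideal.Quotient.mk _ b)
  obtain ⟨a, rfl⟩ := Ideal.Quotient.mk_surjective a'
  refine ⟨a, ?_⟩
  rw [Ideal.Quotient.algebraMap_mk_of_liesOver] at ha'
  exact Ideal.Quotient.eq.mp ha'

/-- **(1)** if an element of valuation `exp (-1)` is a local norm at the non-split prime `v`,
then `p` divides the ramification index. -/
theorem td_dvd_ram {p : ℕ} (hp : p.Prime) (hfin : Module.finrank F M = p)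
    {v : HeightOneSpectrum (𝓞 F)} (hns : ¬ SplitsCompletely F M v)
    (w : HeightOneSpectrum (𝓞 M)) [hlo : w.asIdeal.LiesOver v.asIdeal] {y : F}
    (hy : v.valuation F y = WithZero.exp (-1 : ℤ)) (hN : IsLocalNormAt F M v p y) :
    p ∣ v.asIdeal.ramificationIdx' w.asIdeal := by
  obtain ⟨z, hz0, hpm⟩ := hN
  have hn0 : Algebra.norm F z ≠ 0 := by
    rw [Ne, Algebra.norm_eq_zero_iff]; exact hz0
  have h1 : v.valuation F (Algebra.norm F z) = WithZero.exp (-1 : ℤ) := by
    rw [td_valuation_eq_of_isPowMod hn0 hpm, hy]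
  have h2 := td_valuation_norm' hp hfin hns w z
  rw [h1] at h2
  have hwz : w.valuation M z ≠ 0 := (Valuation.ne_zero_iff _).mpr hz0
  rw [← WithZero.exp_log hwz, ← WithZero.exp_nsmul, ← WithZero.exp_nsmul, WithZero.exp_inj] at h2
  -- `e • (-1) = p • log (w z)`
  have h3 : (p : ℤ) ∣ (v.asIdeal.ramificationIdx' w.asIdeal : ℤ) := by
    refine ⟨-(WithZero.log (w.valuation M z)), ?_⟩
    simp only [nsmul_eq_mul] at h2
    linarith
  exact_mod_cast h3

/-- **(2)** at a totally ramified prime (`f = 1`), a `v`-unit which is a local norm is a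
`p`-th power residue. -/
theorem td_isPowMod_of_inertiaDeg {p : ℕ} (hp : p.Prime) (hfin : Module.finrank F M = p)
    {v : HeightOneSpectrum (𝓞 F)} (hns : ¬ SplitsCompletely F M v)
    (w : HeightOneSpectrum (𝓞 M)) [hlo : w.asIdeal.LiesOver v.asIdeal]
    (hf : w.asIdeal.inertiaDeg (𝓞 F) = 1) {u : F}
    (hu : v.valuation F u = 1) (hN : IsLocalNormAt F M v p u) : IsPowMod F v p u := by
  have hw : primeBelow (F := F) w = v := HeightOneSpectrum.ext hlo.over.symm
  obtain ⟨z, hz0, hpm⟩ := hN
  have hn0 : Algebra.norm F z ≠ 0 := by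
    rw [Ne, Algebra.norm_eq_zero_iff]; exact hz0
  have hvn : v.valuation F (Algebra.norm F z) = 1 := by
    rw [td_valuation_eq_of_isPowMod hn0 hpm, hu]
  -- `z` is a unit at `w`
  have hwz : w.valuation M z = 1 := by
    have h2 := td_valuation_norm' hp hfin hns w z
    rw [hvn, one_pow] at h2
    have hwz0 : w.valuation M z ≠ 0 := (Valuation.ne_zero_iff _).mpr hz0
    rw [← WithZero.exp_log hwz0, ← WithZero.exp_nsmul, ← WithZero.exp_zero, WithZero.exp_inj]
      at h2
    have h3 : WithZero.log (w.valuation M z) = 0 := by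
      simp only [nsmul_eq_mul] at h2
      have hp0 : (p : ℤ) ≠ 0 := by exact_mod_cast hp.ne_zero
      rcases mul_eq_zero.mp h2.symm with h | h
      · exact absurd h hp0
      · exact h
    rw [← WithZero.exp_log hwz0, h3, WithZero.exp_zero]
  -- `z ≡ a mod w` with `a ∈ 𝓞 F`
  obtain ⟨b, hb, hzb⟩ := wp2_exists_approx w hwz
  obtain ⟨a, hab⟩ := td_exists_integer_sub_mem v w hf b
  have hab' : w.valuation M ((algebraMap (𝓞 F) (𝓞 M) a : 𝓞 M) - (b : M)) < 1 := by
    have := (w.valuation_lt_one_iff_mem (K := M) (algebraMap (𝓞 F) (𝓞 M) a - b)).mpr hab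
    simpa using this
  have hcoe : ((algebraMap (𝓞 F) (𝓞 M) a : 𝓞 M) : M) = algebraMap F M (a : F) := rfl
  have hza : w.valuation M (z - algebraMap F M (a : F)) < 1 := by
    have e : z - algebraMap F M (a : F) =
        (z - (b : M)) - (((algebraMap (𝓞 F) (𝓞 M) a : 𝓞 M) : M) - (b : M)) := by
      rw [hcoe]; ring
    rw [e]
    exact lt_of_le_of_lt (Valuation.map_sub _ _ _) (max_lt hzb hab')
  have ha1 : w.valuation M (algebraMap F M (a : F)) ≤ 1 := by
    rw [← hcoe]
    exact w.valuation_le_one _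
  -- the norm of `z` is congruent to `a ^ p`
  have hprod : w.valuation M (algebraMap F M (Algebra.norm F z) - algebraMap F M (a : F) ^ p)
      < 1 := by
    have h := td_prod_sub_pow_lt_one (w.valuation M) (Finset.univ : Finset (M ≃ₐ[F] M))
      (fun τ => τ z) ha1 (fun τ _ => by
        have e : τ z - algebraMap F M (a : F) = τ (z - algebraMap F M (a : F)) := by
          rw [map_sub, AlgEquiv.commutes]
        rw [e, td_valuation_apply hp hfin hns w hw]
        exact hza)
    rw [Finset.card_univ, ← Nat.card_eq_fintype_card, IsGalois.card_aut_eq_finrank, hfin,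
      ← Algebra.norm_eq_prod_automorphisms] at h
    exact h
  have hNa : v.valuation F (Algebra.norm F z - (a : F) ^ p) < 1 := by
    apply valuation_lt_one_of_algebraMap v w
    rw [map_sub, map_pow]
    exact hprod
  -- `a ∉ v`
  have hav : a ∉ v.asIdeal := by
    intro hav
    have h1 : v.valuation F (a : F) < 1 := (v.valuation_lt_one_iff_mem (K := F) a).mpr hav
    have h2 : v.valuation F ((a : F) ^ p) < 1 := by
      rw [map_pow]
      exact pow_lt_one₀ zero_le h1 hp.ne_zero
    have h3 : v.valuation F (Algebra.norm F z) < 1 := by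
      have e : Algebra.norm F z = (Algebra.norm F z - (a : F) ^ p) + (a : F) ^ p := by ring
      rw [e]
      exact lt_of_le_of_lt (Valuation.map_add _ _ _) (max_lt hNa h2)
    rw [hvn] at h3
    exact lt_irrefl _ h3
  -- conclusion
  obtain ⟨c, hc, hcu⟩ := hpm
  refine ⟨c * a, fun h => ?_, ?_⟩
  · rcases v.isPrime.mem_or_mem h with h | h
    · exact hc h
    · exact hav h
  · have hc1 : v.valuation F ((c : F) ^ p) ≤ 1 := by
      rw [map_pow]
      exact pow_le_one' (v.valuation_le_one c) p
    have e : u - ((c * a : 𝓞 F) : F) ^ p =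
        (u * (Algebra.norm F z)⁻¹ - (c : F) ^ p) * Algebra.norm F z +
          (c : F) ^ p * (Algebra.norm F z - (a : F) ^ p) := by
      push_cast
      field_simp
      ring
    rw [e]
    refine lt_of_le_of_lt (Valuation.map_add _ _ _) (max_lt ?_ ?_)
    · rw [map_mul, hvn, mul_one]
      exact hcu
    · rw [map_mul]
      exact lt_of_le_of_lt (mul_le_of_le_one_left' hc1) hNa

end td

/-- **(Td)** `LocalNormProper`. -/
theorem localNormProper : LocalNormProper := by
  intro p F M _ _ _ _ _ _ v y u hp hfin _ hns hy hu hnp hNy hNu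
  obtain ⟨w, hw⟩ := exists_primeBelow_eq (M := M) v
  have hlo : w.asIdeal.LiesOver v.asIdeal := ⟨by rw [← hw]; rfl⟩
  have hdvd := td_dvd_ram hp hfin hns w hy hNy
  have hef := td_ram_mul_inertia hp hfin hns w
  have hf : w.asIdeal.inertiaDeg (𝓞 F) = 1 := by
    obtain ⟨k, hk⟩ := hdvd
    rw [hk, mul_assoc] at hef
    have h1 : k * w.asIdeal.inertiaDeg (𝓞 F) = 1 := by
      have := hp.pos
      exact Nat.eq_of_mul_eq_mul_left this (by rw [hef, mul_one])
    exact Nat.eq_one_of_mul_eq_one_left h1
  exact hnp (td_isPowMod_of_inertiaDeg hp hfin hns w hf hu hNu)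

end Fermat.Agent.S14SI
end MergeWrap_S14_SI_LocalNormProper
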